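import Mathlib
import Fermat.Agent.X0.Defs

set_option autoImplicit false

/-!
# Program J, node J-DICT: the dictionary of `X0/*` over the constant field `ℂ` — shared definitions

The files of this directory are ports of the `ℚ̄`-specific files of `Fermat/Agent/X0/` (the S24/S20
dictionary between places of the function field of `X₀(N)` and points of `ℍ ∪ cusps`) to the
constant field `ℂ`.  Names are kept; the namespace is `Fermat.Agent.Jac.DictC`, in which
`Kc = ℂ` plays the role of `X0.Kb = ℚ̄`, `Fc N` of `X0.Fb N`, and `iotaC = id`.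
Generic lemmas of `X0/*` (those not mentioning `ℚ̄`) are used by import.
-/

namespace Fermat.Agent.Jac.DictC

open Fermat.Agent.X0

open AlgebraicCurve ModularCurve KaehlerDifferential IntermediateField
open scoped MatrixGroups

/-- The base field `ℂ`. -/
abbrev Kc : Type := ℂ

/-- The function field of `X₀(N)` over `ℂ` as a subfield of `ℂ((q))` (Prelude model). -/
noncomputable abbrev modularFunctionFieldC (N : ℕ) : IntermediateField Kc (LaurentSeries Kc) :=
  laurentBaseChange Kc (modularFunctionFieldFull N)

/-- The function field of `X₀(N)` over `ℂ`. -/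
abbrev Fc (N : ℕ) : Type := ↥(modularFunctionFieldC N)

/-- The `j`-function as an element of `Fc N`. -/
noncomputable def jBar (N : ℕ) : Fc N :=
  ⟨coeffEmb Kc jq, by
    have h := jqd_mem_full N (one_dvd N)
    rw [qExpand_one_apply] at h
    exact coeffEmb_mem_laurentBaseChange Kc h⟩

@[simp] theorem coe_jBar (N : ℕ) : ((jBar N : Fc N) : LaurentSeries Kc) = coeffEmb Kc jq := rfl

/-- `j(q^d)` as an element of `Fc N`, for `d ∣ N`. -/
noncomputable def jBarD (N d : ℕ) [NeZero d] (hd : d ∣ N) : Fc N :=
  ⟨coeffEmb Kc (qExpand ℚ d jq), coeffEmb_mem_laurentBaseChange Kc (jqd_mem_full N hd)⟩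

@[simp] theorem coe_jBarD (N d : ℕ) [NeZero d] (hd : d ∣ N) :
    ((jBarD N d hd : Fc N) : LaurentSeries Kc) = coeffEmb Kc (qExpand ℚ d jq) := rfl

end Fermat.Agent.Jac.DictC
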