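-- Ported from Fermat/Agent/X0/DegLowerCore.lean with the constant field `ℚ̄` replaced by `ℂ` (Program J, node J-DICT).
import Mathlib
import Fermat.Agent.X0.DegLowerCore
import Fermat.Agent.Jac.DictC.Psi
import Fermat.Agent.X0.Psi
import Fermat.Agent.X0.ModVal
import Fermat.Agent.X0.QExpGamma
import Fermat.Agent.S23.Conj

set_option autoImplicit false

/-!
# X-MOD, piece MOD-DEG (part 2): the analytic core of the lower bound `[Fc N : ℚ̄(j)] ≥ ψ(N)`

If `Q ∈ ℚ̄[X][Y]` has `Y`-degree `< [SL(2, ℤ) : Γ₀(N)]` and `Q(j, j_N) = 0` in `Fc N`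
(`j_N = jBarD N N`), then all coefficients `Q_k(j)` vanish.  Proof: apply `Ψ` and precompose with
`γ⁻¹`; for every `z` the polynomial `∑ Q_k(j(z)) Y ^ k` has the `[SL(2, ℤ) : Γ₀(N)]` roots
`j(N γ⁻¹ z)`, which are pairwise distinct for generic `z`
(helper21's `coset_eq_of_jFun_scaleH_inv_smul_eq`).
-/

namespace Fermat.Agent.Jac.DictC

open Fermat.Agent.X0

open UpperHalfPlane Polynomial CongruenceSubgroup
open Fermat.Agent.S23 Fermat.Agent.S23.PrimEltQExp
open scoped MatrixGroups Manifold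

/-- `j` as an element of `Rb N`. -/
noncomputable def jRb (N : ℕ) : Rb N := ⟨jBar N, jBar_mem_Rb N⟩

/-- `j_N = j(q^N)` as an element of `Rb N`. -/
noncomputable def jNRb (N : ℕ) [NeZero N] : Rb N := ⟨jBarD N N dvd_rfl, jBarD_mem_Rb N N dvd_rfl⟩

@[simp] theorem coe_jRb (N : ℕ) : ((jRb N : Rb N) : Fc N) = jBar N := rfl

@[simp] theorem coe_jNRb (N : ℕ) [NeZero N] : ((jNRb N : Rb N) : Fc N) = jBarD N N dvd_rfl := rfl

theorem Psi_jRb (N : ℕ) : Psi N (jRb N) = jFun := Psi_jBar_eq_jFun N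

theorem Psi_jNRb (N : ℕ) [NeZero N] : Psi N (jNRb N) = fun z => jFun (scaleH N z) :=
  Psi_jBarD N N dvd_rfl

/-- `Ψ` of a polynomial in `j`. -/
theorem Psi_aeval_jRb (N : ℕ) (p : Kc[X]) (z : ℍ) :
    Psi N (aeval (jRb N) p) z = eval₂ iotaC (jFun z) p := by
  induction p using Polynomial.induction_on' with
  | add p q hp hq => rw [map_add, map_add, Pi.add_apply, hp, hq, eval₂_add]
  | monomial n a =>
    rw [aeval_monomial, map_mul, map_pow, Psi_algebraMap, Psi_jRb, eval₂_monomial]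
    rfl

theorem coe_aeval_jRb (N : ℕ) (p : Kc[X]) :
    ((aeval (jRb N) p : Rb N) : Fc N) = aeval (jBar N) p := by
  have := Polynomial.aeval_algHom_apply (Rb N).val (jRb N) p
  simpa using this.symm

/-- The ring hom `ℚ̄[X] → ℂ`, `p ↦ p(j(z))`. -/
noncomputable def evJ (z : ℍ) : Kc[X] →+* ℂ := eval₂RingHom iotaC (jFun z)

theorem evJ_apply (z : ℍ) (p : Kc[X]) : evJ z p = eval₂ iotaC (jFun z) p := rfl

theorem evJ_smul (γ : SL(2, ℤ)) (z : ℍ) : evJ (γ • z) = evJ z := by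
  unfold evJ
  rw [jFun_smul]

/-- The conjugates of `j_N`, indexed by the cosets of `Γ₀(N)`: `z ↦ j(N · γ⁻¹ z)`. -/
noncomputable def jNConj (N : ℕ) [NeZero N] (c : SL(2, ℤ) ⧸ Gamma0 N) : ℍ → ℂ :=
  cosetHom (Gamma0 N) (Psi N) c (jNRb N)

theorem jNConj_apply (N : ℕ) [NeZero N] (c : SL(2, ℤ) ⧸ Gamma0 N) (z : ℍ) :
    jNConj N c z = jFun (scaleH N ((Quotient.out c)⁻¹ • z)) := by
  unfold jNConj cosetHom
  rw [conjHom_apply, Psi_jNRb]

theorem jNConj_mdiff (N : ℕ) [NeZero N] (c : SL(2, ℤ) ⧸ Gamma0 N) : MDiff (jNConj N c) :=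
  cosetHom_mdiff (Gamma0 N) (Psi_mdiff N) c (jNRb N)

theorem jNConj_injective (N : ℕ) [NeZero N] : Function.Injective (jNConj N) := by
  intro c c' h
  have h1 : (fun z : ℍ => jFun (scaleH N ((Quotient.out c)⁻¹ • z))) =
      fun z : ℍ => jFun (scaleH N ((Quotient.out c')⁻¹ • z)) := by
    funext z
    rw [← jNConj_apply, ← jNConj_apply, h]
  have h2 := coset_eq_of_jFun_scaleH_inv_smul_eq N h1
  rwa [QuotientGroup.out_eq', QuotientGroup.out_eq'] at h2

/-- The relation `Q(j, j_N) = 0`, transported by `Ψ`: for every `w`, the polynomial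
`Q.map (evJ w)` vanishes at `j(N w)`. -/
theorem eval_map_evJ_eq_zero (N : ℕ) [NeZero N] (Q : Kc[X][X])
    (h : (Q.map (aeval (jBar N) : Kc[X] →ₐ[Kc] Fc N).toRingHom).eval (jBarD N N dvd_rfl) = 0)
    (w : ℍ) : (Q.map (evJ w)).eval (jFun (scaleH N w)) = 0 := by
  -- the relation in `Rb N`
  have h1 : Q.eval₂ ((aeval (jRb N) : Kc[X] →ₐ[Kc] Rb N) : Kc[X] →+* Rb N) (jNRb N) = 0 := by
    apply Subtype.ext
    have h2 := Polynomial.hom_eval₂ Q ((aeval (jRb N) : Kc[X] →ₐ[Kc] Rb N) : Kc[X] →+* Rb N)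
      ((Rb N).val : Rb N →+* Fc N) (jNRb N)
    have h3 : (((Rb N).val : Rb N →+* Fc N).comp
        ((aeval (jRb N) : Kc[X] →ₐ[Kc] Rb N) : Kc[X] →+* Rb N)) =
        (aeval (jBar N) : Kc[X] →ₐ[Kc] Fc N).toRingHom := by
      ext p
      · simp
      · simp
    rw [h3] at h2
    rw [eval_map] at h
    change ((Rb N).val : Rb N →+* Fc N) _ = 0
    rw [h2]
    exact h
  -- apply `Ψ` and evaluate at `w`
  have h4 := congrArg (fun r => Psi N r w) h1
  simp only [map_zero, Pi.zero_apply] at h4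
  have h5 := Polynomial.hom_eval₂ Q ((aeval (jRb N) : Kc[X] →ₐ[Kc] Rb N) : Kc[X] →+* Rb N)
    ((Pi.evalRingHom (fun _ : ℍ => ℂ) w).comp (Psi N)) (jNRb N)
  have h6 : ((Pi.evalRingHom (fun _ : ℍ => ℂ) w).comp (Psi N)).comp
      ((aeval (jRb N) : Kc[X] →ₐ[Kc] Rb N) : Kc[X] →+* Rb N) = evJ w := by
    apply RingHom.ext
    intro p
    exact Psi_aeval_jRb N p w
  have h7 : ((Pi.evalRingHom (fun _ : ℍ => ℂ) w).comp (Psi N)) (jNRb N) = jFun (scaleH N w) := by
    change Psi N (jNRb N) w = _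
    rw [Psi_jNRb]
  rw [h6, h7] at h5
  rw [eval_map, ← h5]
  change Psi N _ w = 0
  exact h4

/-- **Analytic core of the lower bound.** -/
theorem map_aeval_jBar_eq_zero_of_natDegree_lt (N : ℕ) [NeZero N] (Q : Kc[X][X])
    (hdeg : Q.natDegree < Nat.card (SL(2, ℤ) ⧸ Gamma0 N))
    (h : (Q.map (aeval (jBar N) : Kc[X] →ₐ[Kc] Fc N).toRingHom).eval (jBarD N N dvd_rfl) = 0) :
    Q.map (aeval (jBar N) : Kc[X] →ₐ[Kc] Fc N).toRingHom = 0 := by
  classical
  have : Finite (SL(2, ℤ) ⧸ Gamma0 N) := Nat.finite_of_card_ne_zero (by omega)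
  have : Fintype (SL(2, ℤ) ⧸ Gamma0 N) := Fintype.ofFinite _
  -- every conjugate is a root of `Q.map (evJ z)`
  have hroot : ∀ (z : ℍ) (c : SL(2, ℤ) ⧸ Gamma0 N), (Q.map (evJ z)).eval (jNConj N c z) = 0 := by
    intro z c
    have := eval_map_evJ_eq_zero N Q h ((Quotient.out c)⁻¹ • z)
    rwa [evJ_smul, ← jNConj_apply] at this
  -- the discriminant-like product
  set D : ℍ → ℂ := ∏ x ∈ (Finset.univ : Finset (SL(2, ℤ) ⧸ Gamma0 N)).offDiag,
    (jNConj N x.1 - jNConj N x.2) with hD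
  have hDne : D ≠ 0 := by
    apply finset_prod_ne_zero_of_mdiff
    · intro x _
      exact (jNConj_mdiff N x.1).sub (jNConj_mdiff N x.2)
    · intro x hx h0
      have hne : x.1 ≠ x.2 := (Finset.mem_offDiag.mp hx).2.2
      exact hne (jNConj_injective N (sub_eq_zero.mp h0))
  have hDmd : MDiff D :=
    MDifferentiable.prod fun x _ => (jNConj_mdiff N x.1).sub (jNConj_mdiff N x.2)
  -- at points where `D ≠ 0` the polynomial vanishes
  have hzero : ∀ z : ℍ, D z ≠ 0 → Q.map (evJ z) = 0 := by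
    intro z hz
    have hinj : Function.Injective fun c : SL(2, ℤ) ⧸ Gamma0 N => jNConj N c z := by
      intro c c' hcc
      by_contra hne
      apply hz
      rw [hD, Finset.prod_apply]
      apply Finset.prod_eq_zero (i := (c, c')) (Finset.mem_offDiag.mpr ⟨Finset.mem_univ _,
        Finset.mem_univ _, hne⟩)
      simp only [Pi.sub_apply]
      exact sub_eq_zero.mpr hcc
    apply Polynomial.eq_zero_of_natDegree_lt_card_of_eval_eq_zero (Q.map (evJ z)) hinj (hroot z)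
    rw [← Nat.card_eq_fintype_card]
    exact lt_of_le_of_lt natDegree_map_le hdeg
  -- coefficientwise
  apply Polynomial.ext
  intro k
  rw [coeff_map, coeff_zero]
  change aeval (jBar N) (Q.coeff k) = 0
  rw [← coe_aeval_jRb]
  have hPsi : Psi N (aeval (jRb N) (Q.coeff k)) = 0 := by
    have hmul : D * Psi N (aeval (jRb N) (Q.coeff k)) = 0 := by
      funext z
      rw [Pi.mul_apply, Pi.zero_apply]
      by_cases hz : D z = 0
      · rw [hz, zero_mul]
      · have := congrArg (fun p => p.coeff k) (hzero z hz)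
        simp only [coeff_map, coeff_zero] at this
        rw [Psi_aeval_jRb, ← evJ_apply, this, mul_zero]
    rcases mdiff_mul_eq_zero hDmd (Psi_mdiff N _) hmul with h1 | h1
    · exact absurd h1 hDne
    · exact h1
  have := Psi_injective N (hPsi.trans (map_zero (Psi N)).symm)
  rw [this]
  rfl

end Fermat.Agent.Jac.DictC
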