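-- Ported from Fermat/Agent/X0/DegTrans.lean with the constant field `ℚ̄` replaced by `ℂ` (Program J, node J-DICT).
import Mathlib
import Fermat.Agent.Jac.DictC.Defs
import Fermat.Agent.X0.Defs

set_option autoImplicit false

/-!
# X-MOD, piece MOD-DEG (part 1): `jBar N` is transcendental over `ℚ̄`
-/

namespace Fermat.Agent.Jac.DictC

open Fermat.Agent.X0

open ModularCurve HahnSeries Polynomial

/-- The `(-n)`-th coefficient of `p(j)` for `p` of degree `≤ n` is the `n`-th coefficient of `p`. -/
theorem coeff_aeval_jq_neg (p : Polynomial Kc) (n : ℕ) (hn : p.natDegree ≤ n) :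
    (Polynomial.aeval (coeffEmb Kc jq) p).coeff (-(n : ℤ)) = p.coeff n := by
  rw [Polynomial.aeval_eq_sum_range' (Nat.lt_succ_of_le hn)]
  rw [HahnSeries.coeff_sum]
  rw [Finset.sum_eq_single n]
  · rw [Algebra.smul_def, algebraMap_laurentSeries_eq_single, HahnSeries.coeff_single_mul,
      sub_zero, ← map_pow, coeffEmb_coeff, coeff_jq_pow_self]
    simp
  · intro i hi hin
    have hlt : i < n := lt_of_le_of_ne (Nat.lt_succ_iff.mp (Finset.mem_range.mp hi)) hin
    rw [Algebra.smul_def, algebraMap_laurentSeries_eq_single, HahnSeries.coeff_single_mul,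
      sub_zero, ← map_pow, coeffEmb_coeff,
      coeff_jq_pow_of_lt (by exact_mod_cast (neg_lt_neg (Int.ofNat_lt.mpr hlt)))]
    simp
  · intro h
    exact absurd (Finset.mem_range.mpr (Nat.lt_succ_self n)) h

theorem transcendental_coeffEmb_jq : Transcendental Kc (coeffEmb Kc jq) := by
  rw [transcendental_iff]
  intro p hp
  by_contra hne
  have h := coeff_aeval_jq_neg p p.natDegree le_rfl
  rw [hp] at h
  exact hne (Polynomial.leadingCoeff_eq_zero.mp (by simpa using h.symm))

theorem jBar_transcendental (N : ℕ) : Transcendental Kc (jBar N) := by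
  have h := transcendental_coeffEmb_jq
  rw [transcendental_iff] at h ⊢
  intro p hp
  apply h
  have h2 := congrArg (fun x : Fc N => (x : LaurentSeries Kc)) hp
  have h3 : ((Polynomial.aeval (jBar N) p : Fc N) : LaurentSeries Kc)
      = Polynomial.aeval ((jBar N : Fc N) : LaurentSeries Kc) p := by
    rw [← IntermediateField.algebraMap_apply, ← Polynomial.aeval_algebraMap_apply]
    rfl
  change ((Polynomial.aeval (jBar N) p : Fc N) : LaurentSeries Kc) = 0 at h2
  rw [h3, coe_jBar] at h2
  exact h2

end Fermat.Agent.Jac.DictC
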