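-- Ported from Fermat/Agent/X0/SoftDescent.lean with the constant field `ℚ̄` replaced by `ℂ` (Program J, node J-DICT).
import Mathlib
import Fermat.Agent.X0.SoftDescent
import Fermat.Agent.Jac.DictC.Psi
import Fermat.Agent.X0.Psi

set_option autoImplicit false

/-!
# X-MOD, piece SOFT DESCENT: a `ℂ`-linear relation among the `Ψ r` descends to `ℚ̄`
-/

namespace Fermat.Agent.Jac.DictC

open Fermat.Agent.X0

open UpperHalfPlane ModularCurve

/-- coefficientwise form of a `ℂ`-linear relation among the functions `Ψ (r i)`. -/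
theorem soft_descent_coeff (N : ℕ) {ι : Type*} (s : Finset ι) (r : ι → Rb N) (c : ι → ℂ)
    (h : ∀ z : ℍ, ∑ i ∈ s, c i * Psi N (r i) z = 0) (n : ℤ) :
    ∑ i ∈ s, c i * iotaC ((((r i : Rb N) : Fc N) : LaurentSeries Kc).coeff n) = 0 := by
  classical
  let A : ι → merCuspSubring := fun i =>
    ⟨fun _ => c i, isMerCusp_const (c i)⟩ * ⟨Psi N (r i), isMerCusp_Psi N (r i)⟩
  have hA : ∑ i ∈ s, A i = 0 := by
    apply Subtype.ext
    funext z
    have h1 : (((∑ i ∈ s, A i : merCuspSubring) : ℍ → ℂ)) z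
        = ∑ i ∈ s, c i * Psi N (r i) z := by
      rw [AddSubmonoidClass.coe_finsetSum, Finset.sum_apply]
      rfl
    rw [h1, h z]
    rfl
  have hq := congrArg qexpLHom hA
  rw [map_sum, map_zero] at hq
  have hq2 := congrArg (fun x : LaurentSeries ℂ => x.coeff n) hq
  simp only [HahnSeries.coeff_sum, HahnSeries.coeff_zero] at hq2
  rw [← hq2]
  refine Finset.sum_congr rfl fun i _ => ?_
  have : qexpLHom (A i) = HahnSeries.C (c i) *
      coeffMap iotaC (((r i : Rb N) : Fc N) : LaurentSeries Kc) := by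
    change qexpLHom (⟨fun _ => c i, isMerCusp_const (c i)⟩ *
      ⟨Psi N (r i), isMerCusp_Psi N (r i)⟩) = _
    rw [map_mul, qexpLHom_apply, qexpLHom_apply, qexpL_const, qexpL_Psi]
  rw [this, HahnSeries.C_mul_eq_smul, HahnSeries.coeff_smul, coeffMap_coeff, smul_eq_mul]

theorem soft_descent (N : ℕ) {ι : Type*} (s : Finset ι) (r : ι → Rb N) (c : ι → ℂ) (i0 : ι)
    (hi0 : i0 ∈ s) (hc : c i0 ≠ 0) (h : ∀ z : ℍ, ∑ i ∈ s, c i * Psi N (r i) z = 0) :
    ∃ l : ι → Kc, l i0 = 1 ∧ (∀ i ∈ s, c i = 0 → l i = 0) ∧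
      ∑ i ∈ s, l i • ((r i : Rb N) : Fc N) = 0 := by
  classical
  letI : Algebra Kc ℂ := iotaC.toAlgebra
  have hsmul : ∀ (k : Kc) (z : ℂ), k • z = iotaC k * z := fun k z => rfl
  obtain ⟨φ0, hφ0⟩ : ∃ φ0 : Module.Dual Kc ℂ, φ0 (c i0) ≠ 0 := by
    by_contra hcon
    push Not at hcon
    exact hc ((Module.forall_dual_apply_eq_zero_iff Kc (c i0)).mp hcon)
  refine ⟨fun i => φ0 (c i) / φ0 (c i0), div_self hφ0, ?_, ?_⟩
  · intro i _ hi
    simp [hi]
  · apply Subtype.ext
    rw [AddSubmonoidClass.coe_finsetSum]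
    ext n
    rw [HahnSeries.coeff_sum]
    have hn := soft_descent_coeff N s r c h n
    have hn2 : ∑ i ∈ s, ((((r i : Rb N) : Fc N) : LaurentSeries Kc).coeff n) • c i = 0 := by
      rw [← hn]
      refine Finset.sum_congr rfl fun i _ => ?_
      rw [hsmul, mul_comm]
    have hn3 := congrArg φ0 hn2
    rw [map_sum, map_zero] at hn3
    have hn4 : ∑ i ∈ s, (φ0 (c i) / φ0 (c i0)) *
        ((((r i : Rb N) : Fc N) : LaurentSeries Kc).coeff n) = 0 := by
      have : ∑ i ∈ s, (φ0 (c i) / φ0 (c i0)) *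
          ((((r i : Rb N) : Fc N) : LaurentSeries Kc).coeff n)
          = (φ0 (c i0))⁻¹ * ∑ i ∈ s, φ0 (((((r i : Rb N) : Fc N) : LaurentSeries Kc).coeff n) • c i) := by
        rw [Finset.mul_sum]
        refine Finset.sum_congr rfl fun i _ => ?_
        rw [map_smul, smul_eq_mul]
        field_simp
      rw [this, hn3, mul_zero]
    have h0 : (((0 : Fc N) : LaurentSeries Kc)).coeff n = 0 := rfl
    rw [h0, ← hn4]
    refine Finset.sum_congr rfl fun i _ => ?_
    rw [IntermediateField.coe_smul, Algebra.smul_def, algebraMap_laurentSeries_eq_single,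
      HahnSeries.coeff_single_mul, sub_zero]

end Fermat.Agent.Jac.DictC
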