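-- Ported from the last section of Fermat/Agent/X0/SymC.lean with `ℚ̄` replaced by `ℂ` (Program J, node J-DICT).
import Mathlib
import Fermat.Agent.X0.SymC
import Fermat.Agent.Jac.DictC.Psi

set_option autoImplicit false

namespace Fermat.Agent.Jac.DictC.SymC

open Fermat.Agent.X0 Fermat.Agent.X0.SymC

open Finset

section Concrete

open UpperHalfPlane
open scoped MatrixGroups Manifold

local notation "Δ" => ModularForm.discriminant

/-- **SYMC for `Ψ`** over `ℂ` (conditional on the growth estimate `Psi_cusp_bound`). -/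
theorem exists_poly_relation_Psi (N : ℕ) [NeZero N]
    (hb : ∀ (r : Rb N) (γ : SL(2, ℤ)), ∃ m : ℕ,
      IsBoundedAtImInfty (fun z => Δ z ^ m * Psi N r (γ • z)))
    (g : Rb N) {h : Rb N} (hh : h ≠ 0) :
    ∃ P : ℕ → Polynomial ℂ, P 0 ≠ 0 ∧ ∀ z : ℍ,
      ∑ i ∈ Finset.range (Nat.card (SL(2, ℤ) ⧸ CongruenceSubgroup.Gamma0 N) + 1),
        (-1) ^ i * (P i).eval (jFun z) *
          Psi N g z ^ (Nat.card (SL(2, ℤ) ⧸ CongruenceSubgroup.Gamma0 N) - i) * Psi N h z ^ i
          = 0 := by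
  classical
  have : Fintype (SL(2, ℤ) ⧸ CongruenceSubgroup.Gamma0 N) := Fintype.ofFinite _
  have key := exists_poly_relation (Γ := CongruenceSubgroup.Gamma0 N) (θ := Psi N)
    (fun γ hγ r τ => Psi_smul N r γ hγ τ) (Psi_injective N) (Psi_mdiff N) hb g hh
  rw [Nat.card_eq_fintype_card]
  exact key

end Concrete

end Fermat.Agent.Jac.DictC.SymC
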