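-- Ported from Fermat/Agent/X0/DegUpper.lean with the constant field `ℚ̄` replaced by `ℂ` (Program J, node J-DICT).
import Mathlib
import Fermat.Agent.X0.DegUpper
import Fermat.Agent.Jac.DictC.Psi
import Fermat.Agent.X0.Psi
import Fermat.Agent.Jac.DictC.SymC
import Fermat.Agent.X0.SymC
import Fermat.Agent.Jac.DictC.CuspGrowth
import Fermat.Agent.X0.CuspGrowth
import Fermat.Agent.Jac.DictC.DegTrans
import Fermat.Agent.X0.DegTrans
import Fermat.Agent.Jac.DictC.DegLowerCore
import Fermat.Agent.X0.DegLowerCore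
import Fermat.Agent.Jac.DictC.SoftDescent
import Fermat.Agent.X0.SoftDescent

set_option autoImplicit false

/-!
# X-MOD, piece MOD-DEG (part 3, DEG-A): every `f : Fc N` satisfies a nonzero relation of degree
`≤ [SL(2, ℤ) : Γ₀(N)]` over `ℚ̄[j]`

`exists_bounded_relation` is exactly the hypothesis of
`finiteDimensional_adjoin_simple_and_finrank_le_of_bounded` (helper2's `BoundedDegree.lean`) at
`x = jBar N`.
-/

namespace Fermat.Agent.Jac.DictC

open Fermat.Agent.X0

open UpperHalfPlane Polynomial CongruenceSubgroup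
open scoped MatrixGroups Manifold

theorem exists_bounded_relation (N : ℕ) [NeZero N] (f : Fc N) :
    ∃ Q : Kc[X][X], Q.map (aeval (jBar N) : Kc[X] →ₐ[Kc] Fc N).toRingHom ≠ 0 ∧
      Q.natDegree ≤ Nat.card (SL(2, ℤ) ⧸ Gamma0 N) ∧
      (Q.map (aeval (jBar N) : Kc[X] →ₐ[Kc] Fc N).toRingHom).eval f = 0 := by
  classical
  obtain ⟨g, h, hh, rfl⟩ := exists_Rb_div N f
  have hh' : h ≠ 0 := fun h0 => hh (by rw [h0]; rfl)
  obtain ⟨P, hP0, hrel⟩ := SymC.exists_poly_relation_Psi N (Psi_cusp_bound N) g hh'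
  set n := Nat.card (SL(2, ℤ) ⧸ Gamma0 N) with hn
  set D := (Finset.range (n + 1)).sup (fun i => (P i).natDegree) with hD
  obtain ⟨k0, hk0⟩ : ∃ k0, (P 0).coeff k0 ≠ 0 := by
    by_contra hcon
    push Not at hcon
    exact hP0 (Polynomial.ext (by simpa using hcon))
  have hk0D : k0 ≤ D :=
    (le_natDegree_of_ne_zero hk0).trans
      (Finset.le_sup (f := fun i => (P i).natDegree) (Finset.mem_range.mpr (Nat.succ_pos n)))
  set s : Finset (ℕ × ℕ) := Finset.range (n + 1) ×ˢ Finset.range (D + 1) with hs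
  set r : ℕ × ℕ → Rb N := fun x => jRb N ^ x.2 * g ^ (n - x.1) * h ^ x.1 with hr
  set c : ℕ × ℕ → ℂ := fun x => (-1) ^ x.1 * (P x.1).coeff x.2 with hc
  have hsum : ∀ z : ℍ, ∑ x ∈ s, c x * Psi N (r x) z = 0 := by
    intro z
    rw [hs, Finset.sum_product, ← hrel z]
    refine Finset.sum_congr rfl fun i hi => ?_
    have hdeg : (P i).natDegree < D + 1 :=
      Nat.lt_succ_of_le (Finset.le_sup (f := fun i => (P i).natDegree) hi)
    rw [Polynomial.eval_eq_sum_range' hdeg, Finset.mul_sum, Finset.sum_mul, Finset.sum_mul]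
    refine Finset.sum_congr rfl fun k _ => ?_
    simp only [hr, hc, map_mul, map_pow, Pi.mul_apply, Pi.pow_apply, Psi_jRb]
    ring
  obtain ⟨l, hl0, -, hlsum⟩ := soft_descent N s r c (0, k0)
    (by rw [hs, Finset.mem_product]
        exact ⟨Finset.mem_range.mpr (Nat.succ_pos n), Finset.mem_range.mpr (Nat.lt_succ_of_le hk0D)⟩)
    (by simpa [hc] using hk0) hsum
  -- the polynomial
  set q : ℕ → Kc[X] := fun i => ∑ k ∈ Finset.range (D + 1), C (l (i, k)) * X ^ k with hq
  set Q : Kc[X][X] := ∑ i ∈ Finset.range (n + 1), C (q i) * X ^ (n - i) with hQ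
  set φ : Kc[X] →+* Fc N := (aeval (jBar N) : Kc[X] →ₐ[Kc] Fc N).toRingHom with hφ
  have hφq : ∀ i, φ (q i) = ∑ k ∈ Finset.range (D + 1), l (i, k) • (jBar N) ^ k := by
    intro i
    rw [hφ, hq]
    simp only [AlgHom.toRingHom_eq_coe, RingHom.coe_coe, map_sum, map_mul, aeval_C, map_pow,
      aeval_X, Algebra.smul_def]
  refine ⟨Q, ?_, ?_, ?_⟩
  · -- nonzero: coefficient `n`
    intro h0
    have h1 : (Q.map φ).coeff n = 0 := by rw [h0, coeff_zero]
    rw [coeff_map] at h1
    have h2 : Q.coeff n = q 0 := by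
      rw [hQ, finsetSum_coeff, Finset.sum_eq_single 0]
      · rw [coeff_C_mul_X_pow]
        simp
      · intro i hi hi0
        rw [coeff_C_mul_X_pow, if_neg]
        have := Finset.mem_range.mp hi
        omega
      · intro h3
        exact absurd (Finset.mem_range.mpr (Nat.succ_pos n)) h3
    rw [h2] at h1
    have h3 : q 0 = 0 := by
      by_contra hne
      exact (transcendental_iff.mp (jBar_transcendental N)) (q 0) h1 |> hne
    have h4 : (q 0).coeff k0 = 1 := by
      rw [hq]
      simp only [finsetSum_coeff, coeff_C_mul_X_pow]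
      rw [Finset.sum_eq_single k0]
      · simp [hl0]
      · intro k _ hk
        rw [if_neg (Ne.symm hk)]
      · intro h5
        exact absurd (Finset.mem_range.mpr (Nat.lt_succ_of_le hk0D)) h5
    rw [h3, coeff_zero] at h4
    exact zero_ne_one h4
  · -- degree
    rw [hQ]
    apply natDegree_sum_le_of_forall_le
    intro i _
    exact (natDegree_C_mul_X_pow_le (q i) (n - i)).trans (Nat.sub_le n i)
  · -- the relation
    have hhn : ((h : Rb N) : Fc N) ^ n ≠ 0 := pow_ne_zero n hh
    have key : (Q.map φ).eval ((g : Fc N) / (h : Fc N)) * ((h : Rb N) : Fc N) ^ n =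
        ∑ x ∈ s, l x • ((r x : Rb N) : Fc N) := by
      rw [hs, Finset.sum_product, hQ, Polynomial.map_sum, eval_finsetSum, Finset.sum_mul]
      refine Finset.sum_congr rfl fun i hi => ?_
      have hin : i ≤ n := Nat.lt_succ_iff.mp (Finset.mem_range.mp hi)
      rw [Polynomial.map_mul, Polynomial.map_pow, map_C, map_X, eval_mul, eval_C, eval_pow, eval_X,
        hφq, Finset.sum_mul, Finset.sum_mul]
      refine Finset.sum_congr rfl fun k _ => ?_
      have e1 : ((g : Fc N) / (h : Fc N)) ^ (n - i) * ((h : Rb N) : Fc N) ^ n =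
          (g : Fc N) ^ (n - i) * (h : Fc N) ^ i := by
        have : ((h : Rb N) : Fc N) ^ n = (h : Fc N) ^ (n - i) * (h : Fc N) ^ i := by
          rw [← pow_add, Nat.sub_add_cancel hin]
        rw [this, div_pow]
        field_simp
      simp only [hr, MulMemClass.coe_mul, SubmonoidClass.coe_pow, coe_jRb]
      rw [smul_mul_assoc, smul_mul_assoc, mul_assoc, e1, mul_assoc]
    rw [hlsum] at key
    exact (mul_eq_zero.mp key).resolve_right hhn

end Fermat.Agent.Jac.DictC
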