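-- Ported from Fermat/Agent/X0/ModDegOf.lean with the constant field `ℚ̄` replaced by `ℂ` (Program J, node J-DICT).
import Mathlib
import Fermat.Agent.X0.ModDegOf
import Fermat.Agent.Jac.DictC.DegTrans
import Fermat.Agent.X0.DegTrans
import Fermat.Agent.Jac.DictC.DegLower
import Fermat.Agent.X0.DegLower
import Fermat.Agent.X0.BoundedDegree
import Fermat.Agent.X0.CountBasic

/-!
# X-MOD (DEG, assembly in hypothesis form)

`jBar_isSepVar_of`: `jBar N` is a separating variable of `Fc N / Kc` of degree `dedekindPsi N`,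
given the bounded-degree relations (DEG-A, `exists_bounded_relation`).
-/

set_option autoImplicit false

open UpperHalfPlane IntermediateField CongruenceSubgroup ModularCurve Polynomial
open scoped MatrixGroups

namespace Fermat.Agent.Jac.DictC

open Fermat.Agent.X0

/-- `jBar N` is a separating variable of degree `ψ(N)`, from the upper bound relations. -/
theorem jBar_isSepVar_of (N : ℕ) [NeZero N]
    (hrel : ∀ f : Fc N, ∃ Q : Kc[X][X],
      Q.map (aeval (jBar N) : Kc[X] →ₐ[Kc] Fc N).toRingHom ≠ 0 ∧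
      Q.natDegree ≤ Nat.card (SL(2, ℤ) ⧸ Gamma0 N) ∧
      (Q.map (aeval (jBar N) : Kc[X] →ₐ[Kc] Fc N).toRingHom).eval f = 0) :
    IsSepVar Kc (jBar N) (dedekindPsi N) := by
  obtain ⟨hfin, hle⟩ := finiteDimensional_adjoin_simple_and_finrank_le_of_bounded (K := Kc)
    (jBar N) (Nat.card (SL(2, ℤ) ⧸ Gamma0 N)) hrel
  have hge := card_cosets_le_finrank N
  refine ⟨jBar_transcendental N, hfin, ?_⟩
  rw [← card_cosets N]
  exact le_antisymm hle hge

end Fermat.Agent.Jac.DictC
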