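-- Ported from Fermat/Agent/X0/Assembly.lean with the constant field `ℚ̄` replaced by `ℂ` (Program J, node J-DICT).
import Mathlib
import Fermat.Agent.X0.Assembly
import Fermat.Prelude.Def_ModularCurve_ArithmeticGalois
import Fermat.Prelude.Def_ModularCurve_GenusNumerics
import Fermat.Prelude.Def_AlgebraicCurve_CanonicalDivisor
import Fermat.Agent.Jac.DictC.Defs
import Fermat.Agent.X0.Defs
import Fermat.Agent.X0.Alg.RiemannHurwitz
import Fermat.Agent.X0.Count

set_option autoImplicit false

/-!
# PROGRAM X: assembly of S24 from X-ALG, X-COUNT and the five X-MOD statements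

`genus_eq_genusFormula_of` is the statement S24 with the five X-MOD interface statements
(`jBar_isSepVar`, `ord_jBar_sub_le_one`, `card_placesOver_1728`, `card_placesOver_zero`,
`card_placesOverInfty`) as hypotheses; X-ALG (`Alg/RiemannHurwitz.lean`) and X-COUNT
(`Count.lean`) are imported.
-/

namespace Fermat.Agent.Jac.DictC

open Fermat.Agent.X0

open AlgebraicCurve ModularCurve KaehlerDifferential IntermediateField
open scoped MatrixGroups

variable (N : ℕ) [NeZero N]

/-- the degree of the divisor of ANY nonzero differential of `Fc N`. -/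
theorem degree_divisor_differential_Fb_of
    (hsep : IsSepVar Kc (jBar N) (dedekindPsi N))
    (hle : ∀ (v : Place Kc (Fc N)) (a : Kc), a ≠ 0 → a ≠ 1728 →
      v.ord (jBar N - algebraMap Kc (Fc N) a) ≤ 1)
    (h1728 : Nat.card (placesOver (jBar N) (1728 : Kc)) = orbitCount N ModularGroup.S)
    (h0 : Nat.card (placesOver (jBar N) (0 : Kc)) =
      orbitCount N (ModularGroup.S * ModularGroup.T))
    (hinf : Nat.card (placesOverInfty Kc (jBar N)) = orbitCount N ModularGroup.T)
    (ω : Ω[Fc N⁄Kc]) (hω : ω ≠ 0)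
    (Dω : Divisor Kc (Fc N)) (hD : ∀ v, Dω v = v.ordDifferential ω) :
    ((Divisor.degree Dω : ℤ) : ℚ) = 2 * genusFormula N - 2 := by
  classical
  have hA : ∀ (v : Place Kc (Fc N)) (a : Kc),
      2 ≤ v.ord (jBar N - algebraMap Kc (Fc N) a) → a ∈ ({0, 1728} : Finset Kc) := by
    intro v a h
    by_contra hne
    simp only [Finset.mem_insert, Finset.mem_singleton, not_or] at hne
    have := hle v a hne.1 hne.2
    omega
  have h := degree_divisor_differential hsep {0, 1728} hA ω hω Dω hD
  have hne : (0 : Kc) ≠ 1728 := by norm_num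
  rw [Finset.sum_pair hne, h0, h1728, hinf] at h
  have h2 := two_mul_orbitCount_S N
  have h3 := three_mul_orbitCount_ST N
  have hT := orbitCount_T N
  rw [h, genusFormula]
  have h2' : (orbitCount N ModularGroup.S : ℚ) = ((dedekindPsi N : ℚ) + nuTwo N) / 2 := by
    have : (2 : ℚ) * orbitCount N ModularGroup.S = (dedekindPsi N : ℚ) + nuTwo N := by
      exact_mod_cast h2
    linarith
  have h3' : (orbitCount N (ModularGroup.S * ModularGroup.T) : ℚ)
      = ((dedekindPsi N : ℚ) + 2 * nuThree N) / 3 := by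
    have : (3 : ℚ) * orbitCount N (ModularGroup.S * ModularGroup.T)
        = (dedekindPsi N : ℚ) + 2 * nuThree N := by
      exact_mod_cast h3
    linarith
  push_cast
  rw [h2', h3', hT]
  ring

/-- **S24** from the five X-MOD statements. -/
theorem genus_eq_genusFormula_of
    [AlgebraicCurve.HasCanonicalDivisor (K := Kc) (F := Fc N)]
    (hsep : IsSepVar Kc (jBar N) (dedekindPsi N))
    (hle : ∀ (v : Place Kc (Fc N)) (a : Kc), a ≠ 0 → a ≠ 1728 →
      v.ord (jBar N - algebraMap Kc (Fc N) a) ≤ 1)
    (h1728 : Nat.card (placesOver (jBar N) (1728 : Kc)) = orbitCount N ModularGroup.S)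
    (h0 : Nat.card (placesOver (jBar N) (0 : Kc)) =
      orbitCount N (ModularGroup.S * ModularGroup.T))
    (hinf : Nat.card (placesOverInfty Kc (jBar N)) = orbitCount N ModularGroup.T) :
    (AlgebraicCurve.genus Kc (Fc N) : ℚ) = genusFormula N := by
  classical
  have hex : ∃ ω : Ω[Fc N⁄Kc], ω ≠ 0 := ⟨D Kc (Fc N) (jBar N), D_ne_zero_of_isSepVar hsep⟩
  obtain ⟨g, hg⟩ := exists_nat_eq_genusFormula N
  unfold AlgebraicCurve.genus
  rw [dif_pos hex]
  have hdeg := degree_divisor_differential_Fb_of N hsep hle h1728 h0 hinf _ hex.choose_spec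
    (canonicalDivisorOf hex.choose_spec) (fun v => canonicalDivisorOf_apply _ v)
  rw [← hg] at hdeg ⊢
  have hdegZ : Divisor.degree (canonicalDivisorOf hex.choose_spec) = 2 * (g : ℤ) - 2 := by
    have : ((Divisor.degree (canonicalDivisorOf hex.choose_spec) : ℤ) : ℚ)
        = ((2 * (g : ℤ) - 2 : ℤ) : ℚ) := by
      rw [hdeg]; push_cast; ring
    exact_mod_cast this
  rw [hdegZ]
  have : (2 * (g : ℤ) - 2 + 2).toNat / 2 = g := by
    have h1 : (2 * (g : ℤ) - 2 + 2) = ((2 * g : ℕ) : ℤ) := by push_cast; ring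
    rw [h1, Int.toNat_natCast]
    omega
  rw [this]

end Fermat.Agent.Jac.DictC
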