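-- Ported from Fermat/Agent/X0/ValInfPsi.lean with the constant field `ℚ̄` replaced by `ℂ` (Program J, node J-DICT).
import Mathlib
import Fermat.Agent.X0.ValInfPsi
import Fermat.Agent.Jac.DictC.Psi
import Fermat.Agent.X0.Psi
import Fermat.Agent.X0.ValInf
import Fermat.Agent.S23.Hermite

/-!
# X-MOD, piece MOD-VALINF (concrete part): the valuations at `∞` of `Fc N` attached to `Ψ`

* Hermite normal form on `ℍ`: `d · (γ z) = γ₁ ((a z + b) / D)`, `a D = d`.
* `z ↦ j (d · (γ z))` is meromorphic at `i∞` for every `γ ∈ SL(2,ℤ)`; hence so is every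
  `Ψ r ∘ γ` (`isMeroAtImInfty_Psi_smul`).
* `wInf N c : Fc N → ℤ` and its properties in the shape of the abstract counting lemma
  (`x = (jBar N)⁻¹`, `e₀ = N`, `ε = T`).
-/

set_option autoImplicit false
set_option linter.unusedSectionVars false

namespace Fermat.Agent.Jac.DictC

open Fermat.Agent.X0

open UpperHalfPlane Filter Topology ModularForm
open scoped Manifold MatrixGroups ModularForm
open Fermat.Agent.S23 Fermat.Agent.S23.PrimEltQExp

local notation "Δ" => ModularForm.discriminant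
local notation "𝕢" => Function.Periodic.qParam

/-! ## The affine maps `z ↦ (a z + b) / D` -/

/-- The point `(a z + b) / D` of the upper half plane (`a, D > 0`). -/
noncomputable def affH (a b D : ℤ) (ha : 0 < a) (hD : 0 < D) (z : ℍ) : ℍ :=
  ⟨((a : ℂ) * z + b) / D, by
    rw [Complex.div_intCast_im]
    have ha' : (0 : ℝ) < a := by exact_mod_cast ha
    have hD' : (0 : ℝ) < D := by exact_mod_cast hD
    have : ((a : ℂ) * z + b).im = a * z.im := by simp
    rw [this]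
    exact div_pos (mul_pos ha' z.im_pos) hD'⟩

theorem coe_affH (a b D : ℤ) (ha : 0 < a) (hD : 0 < D) (z : ℍ) :
    (affH a b D ha hD z : ℂ) = ((a : ℂ) * z + b) / D := rfl

theorem im_affH (a b D : ℤ) (ha : 0 < a) (hD : 0 < D) (z : ℍ) :
    (affH a b D ha hD z).im = a * z.im / D := by
  rw [← UpperHalfPlane.coe_im, coe_affH, Complex.div_intCast_im]
  simp

theorem tendsto_affH (a b D : ℤ) (ha : 0 < a) (hD : 0 < D) :
    Tendsto (affH a b D ha hD) atImInfty atImInfty := by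
  rw [atImInfty, tendsto_comap_iff]
  have ha' : (0 : ℝ) < a := by exact_mod_cast ha
  have hD' : (0 : ℝ) < D := by exact_mod_cast hD
  have : (UpperHalfPlane.im ∘ affH a b D ha hD) = fun z : ℍ => (a / D : ℝ) * z.im := by
    funext z
    simp only [Function.comp_apply, im_affH]
    ring
  rw [this]
  exact (tendsto_comap (f := UpperHalfPlane.im) (x := atTop)).const_mul_atTop (div_pos ha' hD')

/-- Hermite normal form on `ℍ`. -/
theorem exists_scaleH_smul_eq_smul_affH (d : ℕ) [NeZero d] (γ : SL(2, ℤ)) :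
    ∃ (γ₁ : SL(2, ℤ)) (a b D : ℤ) (ha : 0 < a) (hD : 0 < D), a * D = d ∧
      ∀ z : ℍ, scaleH d (γ • z) = γ₁ • affH a b D ha hD z := by
  obtain ⟨γ₁, a, b, D, ha, hD, haD, hmat, -⟩ := exists_hermite d γ
  refine ⟨γ₁, a, b, D, ha, hD, haD, fun z => ?_⟩
  have e00 := congrFun (congrFun hmat 0) 0
  have e01 := congrFun (congrFun hmat 0) 1
  have e10 := congrFun (congrFun hmat 1) 0
  have e11 := congrFun (congrFun hmat 1) 1
  simp only [Matrix.mul_apply, Fin.sum_univ_two, Matrix.of_apply, Matrix.cons_val',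
    Matrix.cons_val_zero, Matrix.cons_val_one, Matrix.empty_val', Matrix.cons_val_fin_one,
    zero_mul, add_zero, zero_add, one_mul, mul_zero] at e00 e01 e10 e11
  have c00 : (d : ℂ) * (γ 0 0 : ℂ) = (γ₁ 0 0 : ℂ) * a := by exact_mod_cast e00
  have c01 : (d : ℂ) * (γ 0 1 : ℂ) = (γ₁ 0 0 : ℂ) * b + (γ₁ 0 1 : ℂ) * D := by exact_mod_cast e01
  have c10 : (γ 1 0 : ℂ) = (γ₁ 1 0 : ℂ) * a := by exact_mod_cast e10
  have c11 : (γ 1 1 : ℂ) = (γ₁ 1 0 : ℂ) * b + (γ₁ 1 1 : ℂ) * D := by exact_mod_cast e11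
  have hDc : (D : ℂ) ≠ 0 := by exact_mod_cast hD.ne'
  apply UpperHalfPlane.ext
  rw [coe_scaleH, coe_specialLinearGroup_apply, coe_specialLinearGroup_apply γ₁, coe_affH]
  simp only [algebraMap_int_eq, eq_intCast, Complex.ofReal_intCast]
  have hnum : (d : ℂ) * ((γ 0 0 : ℂ) * z + γ 0 1) =
      D * ((γ₁ 0 0 : ℂ) * (((a : ℂ) * z + b) / D) + γ₁ 0 1) := by
    field_simp
    linear_combination (z : ℂ) * c00 + c01
  have hden : ((γ 1 0 : ℂ) * z + γ 1 1) =
      D * ((γ₁ 1 0 : ℂ) * (((a : ℂ) * z + b) / D) + γ₁ 1 1) := by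
    field_simp
    linear_combination (z : ℂ) * c10 + c11
  rw [mul_div_assoc', hnum, hden, mul_div_mul_left _ _ hDc]

theorem exists_jFun_scaleH_smul (d : ℕ) [NeZero d] (γ : SL(2, ℤ)) :
    ∃ (a b D : ℤ) (ha : 0 < a) (hD : 0 < D), a * D = d ∧
      ∀ z : ℍ, jFun (scaleH d (γ • z)) = jFun (affH a b D ha hD z) := by
  obtain ⟨γ₁, a, b, D, ha, hD, haD, h⟩ := exists_scaleH_smul_eq_smul_affH d γ
  exact ⟨a, b, D, ha, hD, haD, fun z => by rw [h z, jFun_smul]⟩

/-! ## Meromorphy at `i∞` of `j (d · γ z)` -/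

theorem tendsto_jFun_mul_qParam :
    Tendsto (fun z : ℍ => jFun z * 𝕢 1 (z : ℂ)) atImInfty (𝓝 1) := by
  have h1 := (E₄_tendsto.pow 3).div tendsto_discriminant_div_qParam one_ne_zero
  rw [one_pow, div_one] at h1
  refine h1.congr fun z => ?_
  have hq : 𝕢 1 (z : ℂ) ≠ 0 := Function.Periodic.qParam_ne_zero _
  have hΔ := discriminant_ne_zero z
  simp only [Pi.div_apply, jFun]
  field_simp

theorem norm_qParam_one (z : ℍ) : ‖𝕢 1 (z : ℂ)‖ = Real.exp (-2 * Real.pi * z.im) := by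
  rw [Function.Periodic.norm_qParam]
  simp

/-- `Δ ^ d · j ((a z + b) / D)` is bounded at `i∞` when `a D = d`. -/
theorem isBoundedAtImInfty_discriminant_pow_mul_jFun_affH (d : ℕ) (a b D : ℤ) (ha : 0 < a)
    (hD : 0 < D) (haD : a * D = d) :
    IsBoundedAtImInfty (Δ ^ d * fun z => jFun (affH a b D ha hD z)) := by
  -- the three bounded factors
  have h1 : IsBoundedAtImInfty (fun z : ℍ => (Δ z / 𝕢 1 (z : ℂ)) ^ d) :=
    isBoundedAtImInfty_of_tendsto (tendsto_discriminant_div_qParam.pow d)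
  have h2 : IsBoundedAtImInfty
      (fun z : ℍ => jFun (affH a b D ha hD z) * 𝕢 1 (affH a b D ha hD z : ℂ)) :=
    isBoundedAtImInfty_of_tendsto (tendsto_jFun_mul_qParam.comp (tendsto_affH a b D ha hD))
  have h3 : IsBoundedAtImInfty
      (fun z : ℍ => (𝕢 1 (z : ℂ)) ^ d / 𝕢 1 (affH a b D ha hD z : ℂ)) := by
    rw [isBoundedAtImInfty_iff]
    refine ⟨1, 0, fun z _ => ?_⟩
    rw [norm_div, norm_pow, norm_qParam_one, norm_qParam_one, ← Real.exp_nat_mul, ← Real.exp_sub,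
      im_affH]
    rw [← Real.exp_zero]
    apply Real.exp_le_exp.mpr
    have ha' : (1 : ℝ) ≤ a := by exact_mod_cast ha
    have hD' : (1 : ℝ) ≤ D := by exact_mod_cast hD
    have hd : (d : ℝ) = a * D := by exact_mod_cast haD.symm
    have hz := z.im_pos
    have hpi := Real.pi_pos
    have key : (a : ℝ) * z.im / D ≤ d * z.im := by
      rw [hd, div_le_iff₀ (by linarith)]
      have : (a : ℝ) * z.im ≤ (a : ℝ) * z.im * D * D := by
        have h0 : 0 ≤ (a : ℝ) * z.im := by positivity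
        nlinarith [mul_le_mul hD' hD' (by norm_num) (by linarith : (0:ℝ) ≤ D)]
      nlinarith
    nlinarith
  have := (h1.mul h3).mul h2
  have e : (Δ ^ d * fun z => jFun (affH a b D ha hD z)) =
      ((fun z : ℍ => (Δ z / 𝕢 1 (z : ℂ)) ^ d) *
        (fun z : ℍ => (𝕢 1 (z : ℂ)) ^ d / 𝕢 1 (affH a b D ha hD z : ℂ))) *
        (fun z : ℍ => jFun (affH a b D ha hD z) * 𝕢 1 (affH a b D ha hD z : ℂ)) := by
    funext z
    simp only [Pi.mul_apply, Pi.pow_apply]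
    have hq : 𝕢 1 (z : ℂ) ≠ 0 := Function.Periodic.qParam_ne_zero _
    have hq' : 𝕢 1 (affH a b D ha hD z : ℂ) ≠ 0 := Function.Periodic.qParam_ne_zero _
    rw [div_pow]
    field_simp
  rw [e]
  exact this

/-- `z ↦ j (d · (γ z))` is meromorphic at `i∞`, for every `γ ∈ SL(2,ℤ)`. -/
theorem isMeroAtImInfty_jFun_scaleH_smul (d : ℕ) [NeZero d] (γ : SL(2, ℤ)) :
    IsMeroAtImInfty (fun z => jFun (scaleH d (γ • z))) := by
  obtain ⟨a, b, D, ha, hD, haD, h⟩ := exists_jFun_scaleH_smul d γ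
  refine ⟨d, ?_⟩
  have : (fun z => jFun (scaleH d (γ • z))) = fun z => jFun (affH a b D ha hD z) := funext h
  rw [this]
  exact isBoundedAtImInfty_discriminant_pow_mul_jFun_affH d a b D ha hD haD

/-! ## Meromorphy at all cusps of `Ψ r` -/

/-- `φ ∘ γ` is meromorphic at `i∞` for every `γ ∈ SL(2,ℤ)`. -/
def IsMeroAtCusps (φ : ℍ → ℂ) : Prop :=
  ∀ γ : SL(2, ℤ), IsMeroAtImInfty (fun z => φ (γ • z))

theorem IsMeroAtCusps.add {φ ψ : ℍ → ℂ} (h1 : IsMeroAtCusps φ) (h2 : IsMeroAtCusps ψ) :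
    IsMeroAtCusps (φ + ψ) := fun γ => (h1 γ).add (h2 γ)

theorem IsMeroAtCusps.mul {φ ψ : ℍ → ℂ} (h1 : IsMeroAtCusps φ) (h2 : IsMeroAtCusps ψ) :
    IsMeroAtCusps (φ * ψ) := fun γ => (h1 γ).mul (h2 γ)

theorem isMeroAtCusps_const (c : ℂ) : IsMeroAtCusps (fun _ => c) :=
  fun _ => isMeroAtImInfty_const c

theorem isMeroAtCusps_jFun_scaleH (d : ℕ) [NeZero d] :
    IsMeroAtCusps (fun z => jFun (scaleH d z)) :=
  fun γ => isMeroAtImInfty_jFun_scaleH_smul d γ

theorem isMeroAtCusps_Psi (N : ℕ) (r : Rb N) : IsMeroAtCusps (Psi N r) := by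
  obtain ⟨x, hx⟩ := r
  induction hx using Algebra.adjoin_induction with
  | mem x hx =>
    obtain ⟨d, hne, hd, rfl⟩ := hx
    have := Psi_jBarD N d hd
    rw [jAn_eq_jFun] at this
    rw [this]
    exact isMeroAtCusps_jFun_scaleH d
  | algebraMap c =>
    have : (⟨algebraMap Kc (Fc N) c, (Rb N).algebraMap_mem c⟩ : Rb N) = algebraMap Kc (Rb N) c :=
      rfl
    rw [this, Psi_algebraMap]
    exact isMeroAtCusps_const _
  | add x y hx hy ihx ihy =>
    have : (⟨x + y, (Rb N).add_mem hx hy⟩ : Rb N) = ⟨x, hx⟩ + ⟨y, hy⟩ := rfl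
    rw [this, map_add]
    exact ihx.add ihy
  | mul x y hx hy ihx ihy =>
    have : (⟨x * y, (Rb N).mul_mem hx hy⟩ : Rb N) = ⟨x, hx⟩ * ⟨y, hy⟩ := rfl
    rw [this, map_mul]
    exact ihx.mul ihy

theorem isMeroAtImInfty_Psi_smul (N : ℕ) (γ : SL(2, ℤ)) (r : Rb N) :
    IsMeroAtImInfty (fun z => Psi N r (γ • z)) :=
  isMeroAtCusps_Psi N r γ

/-! ## The valuations at `∞` of `Fc N` -/

section WInf

variable (N : ℕ) [NeZero N]

/-- All conjugates of `Ψ` have orders at `∞`. -/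
theorem hasOrdsInf_cosetHom_Psi (c : SL(2, ℤ) ⧸ CongruenceSubgroup.Gamma0 N) :
    HasOrdsInf N (cosetHom (CongruenceSubgroup.Gamma0 N) (Psi N) c) :=
  hasOrdsInf_cosetHom_Gamma0 (Psi_injective N) (Psi_mdiff N)
    (fun γ hγ r τ => Psi_smul N r γ hγ τ) (fun g r => isMeroAtImInfty_Psi_smul N g r) c

/-- The valuation of `Fc N` at the cusp `c⁻¹ ∞`: order at `i∞` (in `q_N`) of the `c`-conjugate. -/
noncomputable def wInf (c : SL(2, ℤ) ⧸ CongruenceSubgroup.Gamma0 N) : Fc N → ℤ :=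
  ordAtInf (R := Rb N) N (cosetHom (CongruenceSubgroup.Gamma0 N) (Psi N) c)

theorem wInf_mul (c : SL(2, ℤ) ⧸ CongruenceSubgroup.Gamma0 N) (f g : Fc N) (hf : f ≠ 0)
    (hg : g ≠ 0) : wInf N c (f * g) = wInf N c f + wInf N c g :=
  ordAtInf_mul (hasOrdsInf_cosetHom_Psi N c) hf hg

theorem wInf_add (c : SL(2, ℤ) ⧸ CongruenceSubgroup.Gamma0 N) (f g : Fc N) (hf : f ≠ 0)
    (hg : g ≠ 0) (hfg : f + g ≠ 0) : min (wInf N c f) (wInf N c g) ≤ wInf N c (f + g) :=
  ordAtInf_add (hasOrdsInf_cosetHom_Psi N c) hf hg hfg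

theorem wInf_const (c : SL(2, ℤ) ⧸ CongruenceSubgroup.Gamma0 N) (a : Kc) (ha : a ≠ 0) :
    wInf N c (algebraMap Kc (Fc N) a) = 0 := by
  have h : algebraMap Kc (Fc N) a = algebraMap (Rb N) (Fc N) (algebraMap Kc (Rb N) a) := rfl
  rw [h]
  exact ordAtInf_cosetHom_of_const (hasOrdsInf_cosetHom_Psi N c)
    ((map_ne_zero_iff _ iotaC_injective).mpr ha) (Psi_algebraMap N a)

theorem wInf_x (c : SL(2, ℤ) ⧸ CongruenceSubgroup.Gamma0 N) : wInf N c (jBar N)⁻¹ = N := by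
  have h : jBar N = algebraMap (Rb N) (Fc N) ⟨jBar N, jBar_mem_Rb N⟩ := rfl
  rw [h]
  exact ordAtInf_cosetHom_inv_of_jFun (hasOrdsInf_cosetHom_Psi N c) (Psi_jBar_eq_jFun N)

theorem wInf_eps (c : SL(2, ℤ) ⧸ CongruenceSubgroup.Gamma0 N) (f : Fc N) :
    wInf N ((MulAction.toPerm ModularGroup.T :
      Equiv.Perm (SL(2, ℤ) ⧸ CongruenceSubgroup.Gamma0 N)) c) f = wInf N c f := by
  unfold wInf
  rw [MulAction.toPerm_apply,
    ordAtInf_cosetHom_T_smul (fun γ hγ r τ => Psi_smul N r γ hγ τ) c]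

theorem wInf_div (c : SL(2, ℤ) ⧸ CongruenceSubgroup.Gamma0 N) (k : ℕ) (hk : k ∣ N)
    (hc : ((MulAction.toPerm ModularGroup.T :
      Equiv.Perm (SL(2, ℤ) ⧸ CongruenceSubgroup.Gamma0 N)) ^ k) c = c) (f : Fc N) (hf : f ≠ 0) :
    ((N / k : ℕ) : ℤ) ∣ wInf N c f := by
  rw [toPerm_pow_apply] at hc
  exact dvd_ordAtInf_cosetHom (fun γ hγ r τ => Psi_smul N r γ hγ τ)
    (hasOrdsInf_cosetHom_Psi N c) hk hc hf

/-- `T ^ N` acts trivially on the cosets of `Γ₀(N)`. -/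
theorem toPerm_T_pow_eq_one :
    (MulAction.toPerm ModularGroup.T :
      Equiv.Perm (SL(2, ℤ) ⧸ CongruenceSubgroup.Gamma0 N)) ^ N = 1 := by
  ext c
  rw [toPerm_pow_apply, Equiv.Perm.one_apply]
  obtain ⟨g, rfl⟩ := QuotientGroup.mk_surjective c
  rw [MulAction.Quotient.smul_mk, smul_eq_mul, QuotientGroup.eq]
  have hT : ModularGroup.T ^ N ∈ CongruenceSubgroup.Gamma N := by
    rw [CongruenceSubgroup.Gamma_mem, ← zpow_natCast, ModularGroup.coe_T_zpow]
    simp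
  have h2 : (ModularGroup.T ^ N * g)⁻¹ * g = g⁻¹ * (ModularGroup.T ^ N)⁻¹ * g := by group
  rw [h2]
  apply Gamma_le_Gamma0 N
  have := (CongruenceSubgroup.Gamma_normal N).conj_mem _
    ((CongruenceSubgroup.Gamma N).inv_mem hT) g⁻¹
  simpa using this

end WInf

end Fermat.Agent.Jac.DictC
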