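-- Ported from Fermat/Agent/X0/ModFinalSep.lean with the constant field `ℚ̄` replaced by `ℂ` (Program J, node J-DICT).
import Mathlib
import Fermat.Agent.X0.ModFinalSep
import Fermat.Agent.Jac.DictC.ModFinalCore
import Fermat.Agent.X0.ModFinalCore
import Fermat.Agent.Jac.DictC.ModFinalHyp
import Fermat.Agent.X0.ModFinalHyp
import Fermat.Agent.Jac.DictC.ValPtDist
import Fermat.Agent.X0.ValPtDist
import Fermat.Agent.Jac.DictC.Assembly
import Fermat.Agent.X0.Assembly

/-!
# X-MOD, piece MOD-FINAL: everything from `hsep : IsSepVar Kc (jBar N) (dedekindPsi N)` alone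

The four counting/ramification statements of the X-MOD interface with the distinctness of the
conjugates discharged by `thetaC_injective_cosets`, and S24 (`genus_eq_genusFormula`) with `hsep`
(MOD-DEG) as the only hypothesis.
-/

set_option autoImplicit false

namespace Fermat.Agent.Jac.DictC

open Fermat.Agent.X0

open AlgebraicCurve IntermediateField ModularCurve
open scoped MatrixGroups

variable (N : ℕ) [NeZero N]

theorem ord_jBar_sub_le_one_of_hsep (hsep : IsSepVar Kc (jBar N) (dedekindPsi N))
    (v : Place Kc (Fc N)) (a : Kc) (h0 : a ≠ 0) (h1 : a ≠ 1728) :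
    v.ord (jBar N - algebraMap Kc (Fc N) a) ≤ 1 :=
  ord_jBar_sub_le_one_of N hsep (thetaC_injective_cosets N) v a h0 h1

theorem card_placesOver_1728_of_hsep (hsep : IsSepVar Kc (jBar N) (dedekindPsi N)) :
    Nat.card (placesOver (jBar N) (1728 : Kc)) = orbitCount N ModularGroup.S :=
  card_placesOver_1728_of N hsep (thetaC_injective_cosets N)

theorem card_placesOver_zero_of_hsep (hsep : IsSepVar Kc (jBar N) (dedekindPsi N)) :
    Nat.card (placesOver (jBar N) (0 : Kc)) =
      orbitCount N (ModularGroup.S * ModularGroup.T) :=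
  card_placesOver_zero_of N hsep (thetaC_injective_cosets N)

theorem card_placesOverInfty_of_hsep (hsep : IsSepVar Kc (jBar N) (dedekindPsi N)) :
    Nat.card (placesOverInfty Kc (jBar N)) = orbitCount N ModularGroup.T :=
  card_placesOverInfty_of_dist N hsep (thetaC_injective_cosets N)

/-- **S24 modulo MOD-DEG**: the genus formula from `jBar_isSepVar` alone. -/
theorem genus_eq_genusFormula_of_hsep
    [AlgebraicCurve.HasCanonicalDivisor (K := Kc) (F := Fc N)]
    (hsep : IsSepVar Kc (jBar N) (dedekindPsi N)) :
    (AlgebraicCurve.genus Kc (Fc N) : ℚ) = genusFormula N :=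
  genus_eq_genusFormula_of N hsep (ord_jBar_sub_le_one_of_hsep N hsep)
    (card_placesOver_1728_of_hsep N hsep) (card_placesOver_zero_of_hsep N hsep)
    (card_placesOverInfty_of_hsep N hsep)

end Fermat.Agent.Jac.DictC
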