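import Mathlib
import Fermat.Agent.FF.RHCoord
import Fermat.Agent.X0.RR7.Final
import Fermat.Agent.Jac.DictC.ModFinal

/-!
# Program J, node J-DICT: the Prelude genus `genusFF` of the function field of `X₀(N)`

* `genusFF_eq_finrank_holDiff` : for `K` algebraically closed of characteristic `0` and a
  separating variable `x`, `genusFF K F = dim_K holDiff K x` (holomorphic differentials `h dx`);
* `two_mul_genusFF_sub_two` : Riemann–Hurwitz in place form for `genusFF`;
* `genusFF_eq_genusFormula_of` : a function field with a separating variable of degree `ψ(N)`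
  branched like `j` on `X₀(N)` has `genusFF = genusFormula N`;
* `genusFF_bar`, `genusFF_C`, `genusFF_C_eq_genusFF_bar` : the function fields of `X₀(N)` over `ℚ̄`
  and over `ℂ` have `genusFF = genusFormula N`; in particular the two genera are equal.
-/

set_option autoImplicit false

namespace Fermat.Agent.Jac.DictC

open AlgebraicCurve ModularCurve Module Fermat.Agent.X0 Fermat.Agent.X0.RR Fermat.Agent.X0.RR7
open scoped MatrixGroups

section General

variable {K F : Type*} [Field K] [Field F] [Algebra K F] [IsAlgClosed K] [CharZero K]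

/-- The Prelude genus is the dimension of the space of holomorphic differentials `h dx`. -/
theorem genusFF_eq_finrank_holDiff {x : F} {n : ℕ} (hx : IsSepVar K x n) :
    genusFF K F = finrank K (holDiff K x) := by
  letI := algPoly K x
  letI := algRat hx.transcendental
  haveI := isScalarTower_poly_rat hx.transcendental
  haveI := isScalarTower_base_poly (K := K) x
  haveI := hx.finite
  haveI := functionField_of_finite hx.transcendental
  haveI := isSeparable_ratFunc hx.transcendental
  haveI := isScalarTower_base_rat (K := K) (F := F)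
  have hcx : coordX K F = x := coordX_eq x
  rw [Fermat.Agent.FF.RRDiff.genusFF_eq_finrank_HOL K F]
  have heq : holDiff K (coordX K F) = HOL K F := by
    ext h
    rw [mem_holDiff_iff_valuation, mem_HOL_iff]
    exact Iff.rfl
  rw [← heq, hcx]

/-- Riemann–Hurwitz in place form for the Prelude genus. -/
theorem two_mul_genusFF_sub_two {x : F} {n : ℕ} (hx : IsSepVar K x n) (A : Finset K)
    (hA : ∀ (v : Place K F) (a : K), 2 ≤ v.ord (x - algebraMap K F a) → a ∈ A) :
    2 * (genusFF K F : ℤ) - 2 =
      -2 * (n : ℤ) + ∑ a ∈ A, ((n : ℤ) - (Nat.card (placesOver x a) : ℤ)) +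
        ((n : ℤ) - (Nat.card (placesOverInfty K x) : ℤ)) := by
  rw [genusFF_eq_finrank_holDiff hx]
  exact (finrank_holDiff_of_isSepVar hx A hA).2

/-- A function field with a separating variable of degree `ψ(N)` which is branched like `j` on
`X₀(N)` has Prelude genus `genusFormula N`. -/
theorem genusFF_eq_genusFormula_of (N : ℕ) [NeZero N] {x : F}
    (hx : IsSepVar K x (dedekindPsi N))
    (hle : ∀ (v : Place K F) (a : K), a ≠ 0 → a ≠ 1728 → v.ord (x - algebraMap K F a) ≤ 1)
    (h1728 : Nat.card (placesOver x (1728 : K)) = orbitCount N ModularGroup.S)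
    (h0 : Nat.card (placesOver x (0 : K)) = orbitCount N (ModularGroup.S * ModularGroup.T))
    (hinf : Nat.card (placesOverInfty K x) = orbitCount N ModularGroup.T) :
    (genusFF K F : ℚ) = genusFormula N := by
  classical
  have hA : ∀ (v : Place K F) (a : K),
      2 ≤ v.ord (x - algebraMap K F a) → a ∈ ({0, 1728} : Finset K) := by
    intro v a h2
    by_contra hmem
    simp only [Finset.mem_insert, Finset.mem_singleton, not_or] at hmem
    have := hle v a hmem.1 hmem.2
    omega
  have h := two_mul_genusFF_sub_two hx ({0, 1728} : Finset K) hA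
  have hne : (0 : K) ≠ 1728 := by norm_num
  rw [Finset.sum_pair hne, h0, h1728, hinf] at h
  have h2 := two_mul_orbitCount_S N
  have h3 := three_mul_orbitCount_ST N
  have hT := orbitCount_T N
  have hq : 2 * (genusFF K F : ℚ) - 2 =
      -2 * (dedekindPsi N : ℚ) +
        (((dedekindPsi N : ℚ) - orbitCount N (ModularGroup.S * ModularGroup.T)) +
          ((dedekindPsi N : ℚ) - orbitCount N ModularGroup.S)) +
        ((dedekindPsi N : ℚ) - orbitCount N ModularGroup.T) := by
    exact_mod_cast h
  have h2' : (orbitCount N ModularGroup.S : ℚ) = ((dedekindPsi N : ℚ) + nuTwo N) / 2 := by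
    have : (2 : ℚ) * orbitCount N ModularGroup.S = (dedekindPsi N : ℚ) + nuTwo N := by
      exact_mod_cast h2
    linarith
  have h3' : (orbitCount N (ModularGroup.S * ModularGroup.T) : ℚ)
      = ((dedekindPsi N : ℚ) + 2 * nuThree N) / 3 := by
    have : (3 : ℚ) * orbitCount N (ModularGroup.S * ModularGroup.T)
        = (dedekindPsi N : ℚ) + 2 * nuThree N := by
      exact_mod_cast h3
    linarith
  rw [h2', h3', hT] at hq
  rw [genusFormula]
  linarith

end General

section Modular

variable (N : ℕ) [NeZero N]

/-- The Prelude genus of the function field of `X₀(N)` over `ℚ̄` is the classical genus. -/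
theorem genusFF_bar :
    (genusFF Fermat.Agent.X0.Kb (Fermat.Agent.X0.Fb N) : ℚ) = genusFormula N :=
  genusFF_eq_genusFormula_of N (Fermat.Agent.X0.jBar_isSepVar N)
    (Fermat.Agent.X0.ord_jBar_sub_le_one N) (Fermat.Agent.X0.card_placesOver_1728 N)
    (Fermat.Agent.X0.card_placesOver_zero N) (Fermat.Agent.X0.card_placesOverInfty N)

/-- The Prelude genus of the function field of `X₀(N)` over `ℂ` is the classical genus. -/
theorem genusFF_C : (genusFF Kc (Fc N) : ℚ) = genusFormula N :=
  genusFF_eq_genusFormula_of N (jBar_isSepVar N) (ord_jBar_sub_le_one N)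
    (card_placesOver_1728 N) (card_placesOver_zero N) (card_placesOverInfty N)

/-- **(J6c)** The function fields of `X₀(N)` over `ℂ` and over `ℚ̄` have the same Prelude genus. -/
theorem genusFF_C_eq_genusFF_bar :
    genusFF ℂ (laurentBaseChange ℂ (modularFunctionFieldFull N)) =
      genusFF (AlgebraicClosure ℚ) (modularFunctionFieldBar N) := by
  have h1 := genusFF_C N
  have h2 := genusFF_bar N
  have : (genusFF Kc (Fc N) : ℚ) = (genusFF Fermat.Agent.X0.Kb (Fermat.Agent.X0.Fb N) : ℚ) := by
    rw [h1, h2]
  exact_mod_cast this

end Modular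

end Fermat.Agent.Jac.DictC
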