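import Mathlib
import Fermat.Agent.X0.ACL

/-!
# Program J, node J-DICT (D2), abstract part: the *exact* form of the abstract counting lemma

Under the hypotheses of `X0.card_places_eq_card_orbits` (a separating variable `x` of `F/K`, a finite
set `C` with `[F : K(x)]` elements, a permutation `ε` of `C` with `ε ^ e₀ = 1` and valuations `w c`
of `F/K` with `w c x = e₀`, compatible with `ε`, with the divisibility property `w_div` and complete),

* every place `v` above `x = 0` is the place of some `w c`, **with exact multiplicities**: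
  `v.ord x = k_c` (the length of the `ε`-orbit of `c`) and `w c f = (e₀ / k_c) * v.ord f`;
* conversely every `c` gives such a place.

The counting proof of `X0/ACL/Core.lean` gives `∑_v ord_v x = n = ∑_{orbits} k` together with
`ord_{v_c} x ≤ k_c` and the surjectivity of `c ↦ v_c`; equality of the sums forces termwise equality.
-/

set_option autoImplicit false

open AlgebraicCurve IsDedekindDomain MulAction IntermediateField

namespace Fermat.Agent.Jac.DictC

open Fermat.Agent.X0

section Combinatorics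

/-- A surjection `π : Q → P` with `e (π q) ≤ sz q`, positive sizes and equal total sums is a
bijection, and the inequalities are equalities. -/
theorem acl_eq_of_sum_eq {P Q : Type*} [Fintype P] [Fintype Q] (e : P → ℕ) (sz : Q → ℕ)
    (hsz : ∀ q, 0 < sz q) (π : Q → P) (hπ : Function.Surjective π)
    (hle : ∀ q, e (π q) ≤ sz q) (hsum : ∑ p, e p = ∑ q, sz q) :
    Function.Bijective π ∧ ∀ q, e (π q) = sz q := by
  classical
  have hcard : Fintype.card P = Fintype.card Q := acl_card_eq_of_sum_eq e sz hsz π hπ hle hsum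
  have hbij : Function.Bijective π :=
    (Fintype.bijective_iff_surjective_and_card π).mpr ⟨hπ, hcard.symm⟩
  refine ⟨hbij, ?_⟩
  have h1 : ∑ q, e (π q) = ∑ p, e p := Fintype.sum_bijective π hbij _ _ fun _ => rfl
  have h2 : ∑ q, e (π q) = ∑ q, sz q := by rw [h1, hsum]
  have h3 := (Finset.sum_eq_sum_iff_of_le (s := Finset.univ) (f := fun q => e (π q)) (g := sz)
    fun q _ => hle q).mp h2
  exact fun q => h3 q (Finset.mem_univ q)

end Combinatorics

variable {K F : Type*} [Field K] [Field F] [Algebra K F]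

section Model

variable {R : Type*} [CommRing R] [IsDedekindDomain R] [Algebra R F] [IsFractionRing R F]
  [Algebra K R] [IsScalarTower K R F]

/-- The ramification bound `ord_{v_c} x ≤ k_c` (extracted from `X0/ACL/Core.lean`). -/
theorem acl_place_ord_le_minimalPeriod {x : F} (hx0 : x ≠ 0)
    {C : Type*} (ε : Equiv.Perm C) (e₀ : ℕ) (he₀ : 0 < e₀)
    (hε : ε ^ e₀ = 1) (w : C → F → ℤ) (hw : ∀ c, IsValFun K (w c)) (hwx : ∀ c, 0 < w c x)
    (w_x : ∀ c, w c x = e₀)
    (w_div : ∀ c (k : ℕ), k ∣ e₀ → (ε ^ k) c = c → ∀ f, f ≠ 0 → ((e₀ / k : ℕ) : ℤ) ∣ w c f)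
    (c : C) :
    ((hw c).place hx0 (hwx c)).ord x ≤ (Function.minimalPeriod (ε • ·) c : ℤ) := by
  obtain ⟨m, t, hm, ht0, hwt, -, hmul⟩ := (hw c).exists_eq_mul_ord hx0 (hwx c)
  set k := Function.minimalPeriod (ε • ·) c with hk
  have hper : Function.IsPeriodicPt (ε • ·) e₀ c := by
    show (ε • ·)^[e₀] c = c
    have : ((ε • ·) : C → C) = ⇑ε := rfl
    rw [this, Equiv.Perm.iterate_eq_pow, hε]
    rfl
  have hkdvd : k ∣ e₀ := hper.minimalPeriod_dvd
  have hfix : (ε ^ k) c = c := by
    have h := Function.isPeriodicPt_minimalPeriod (ε • ·) c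
    have : ((ε • ·) : C → C) = ⇑ε := rfl
    rw [this] at h
    have h' : (⇑ε)^[k] c = c := h
    rwa [Equiv.Perm.iterate_eq_pow] at h'
  have hdiv := w_div c k hkdvd hfix t ht0
  rw [hwt] at hdiv
  have hx := hmul x hx0
  rw [w_x c] at hx
  obtain ⟨q, hq⟩ := hkdvd
  have hkpos : 0 < k := by
    rcases Nat.eq_zero_or_pos k with h | h
    · rw [h, zero_mul] at hq; omega
    · exact h
  have hdivq : e₀ / k = q := by rw [hq, Nat.mul_div_cancel_left _ hkpos]
  rw [hdivq] at hdiv
  have hqpos : 0 < q := by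
    rcases Nat.eq_zero_or_pos q with h | h
    · rw [h, mul_zero] at hq; omega
    · exact h
  have hqm : (q : ℤ) ≤ m := Int.le_of_dvd hm hdiv
  have hordpos : 0 < ((hw c).place hx0 (hwx c)).ord x := (hw c).place_ord_pos hx0 (hwx c)
  set o := ((hw c).place hx0 (hwx c)).ord x with ho
  have h1 : (k : ℤ) * q = m * o := by
    rw [← hx, hq]; push_cast; ring
  by_contra hcon
  have hcon' : (k : ℤ) < o := not_le.mp hcon
  have : (k : ℤ) * q < m * o := by
    calc (k : ℤ) * q ≤ k * m := by
          apply mul_le_mul_of_nonneg_left hqm; exact_mod_cast hkpos.le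
      _ = m * k := by ring
      _ < m * o := by apply mul_lt_mul_of_pos_left hcon' hm
  omega

/-- **Exact abstract counting lemma** over a Dedekind model: every `c` gives a place above `x = 0`
with ramification index exactly the orbit length `k_c`, and `w c = (e₀ / k_c) · ord`. -/
theorem acl_exact_of_model {x : F} {n : ℕ} (hx0 : x ≠ 0)
    (hR : ∀ v : Place K F, 0 < v.ord x → ∀ r : R, algebraMap R F r ∈ v.toValuationSubring)
    (hfin : {v : Place K F | 0 < v.ord x}.Finite)
    (hsum : ∑ v ∈ hfin.toFinset, v.ord x = n)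
    {C : Type*} [Fintype C] (hC : Fintype.card C = n) (ε : Equiv.Perm C) (e₀ : ℕ) (he₀ : 0 < e₀)
    (hε : ε ^ e₀ = 1) (w : C → F → ℤ)
    (w_mul : ∀ c f g, f ≠ 0 → g ≠ 0 → w c (f * g) = w c f + w c g)
    (w_add : ∀ c f g, f ≠ 0 → g ≠ 0 → f + g ≠ 0 → min (w c f) (w c g) ≤ w c (f + g))
    (w_const : ∀ c (a : K), a ≠ 0 → w c (algebraMap K F a) = 0)
    (w_x : ∀ c, w c x = e₀)
    (w_eps : ∀ c f, w (ε c) f = w c f)
    (w_div : ∀ c (k : ℕ), k ∣ e₀ → (ε ^ k) c = c → ∀ f, f ≠ 0 → ((e₀ / k : ℕ) : ℤ) ∣ w c f)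
    (w_complete : ∀ f : F, f ≠ 0 → (∀ c, 0 ≤ w c f) →
      ∀ v : Place K F, 0 < v.ord x → 0 ≤ v.ord f) (c : C) :
    ∃ v : Place K F, 0 < v.ord x ∧ v.ord x = (Function.minimalPeriod (ε • ·) c : ℤ) ∧
      ∀ f : F, f ≠ 0 →
        w c f = ((e₀ / Function.minimalPeriod (ε • ·) c : ℕ) : ℤ) * v.ord f := by
  classical
  have hw : ∀ c, IsValFun K (w c) := fun c => ⟨w_mul c, w_add c, w_const c⟩
  have hwx : ∀ c, 0 < w c x := fun c => by rw [w_x c]; exact_mod_cast he₀
  let pl : C → {v : Place K F // 0 < v.ord x} := fun c =>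
    ⟨(hw c).place hx0 (hwx c), (hw c).place_ord_pos hx0 (hwx c)⟩
  have hpl_val : ∀ c, ((pl c : {v : Place K F // 0 < v.ord x}) : Place K F).toValuationSubring
      = (hw c).valSubring := fun c => rfl
  have hpl_eps : ∀ c, pl (ε c) = pl c := by
    intro c
    apply Subtype.ext
    apply Place.ext
    rw [hpl_val, hpl_val]
    ext f
    rw [IsValFun.mem_valSubring_iff, IsValFun.mem_valSubring_iff, w_eps]
  let H : Subgroup (Equiv.Perm C) :=
    { carrier := {σ | ∀ c, pl (σ c) = pl c}
      mul_mem' := by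
        intro σ τ hσ hτ c
        rw [Equiv.Perm.mul_apply, hσ, hτ]
      one_mem' := fun c => rfl
      inv_mem' := by
        intro σ hσ c
        have := hσ (σ⁻¹ c)
        rw [show σ (σ⁻¹ c) = c from Equiv.apply_symm_apply σ c] at this
        exact this.symm }
  have hH : Subgroup.zpowers ε ≤ H := Subgroup.zpowers_le.mpr hpl_eps
  let plQ : MulAction.orbitRel.Quotient (Subgroup.zpowers ε) C → {v : Place K F // 0 < v.ord x} :=
    Quotient.lift pl (by
      intro a b hab
      have hab' : a ∈ MulAction.orbit (Subgroup.zpowers ε) b := MulAction.orbitRel_apply.mp hab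
      obtain ⟨g, rfl⟩ := hab'
      exact hH g.2 b)
  have hplQ : ∀ c, plQ (Quotient.mk'' c) = pl c := fun c => rfl
  have : Fintype {v : Place K F // 0 < v.ord x} := hfin.fintype
  have hsurj : Function.Surjective plQ := by
    intro v
    obtain ⟨c, hc⟩ := acl_exists_place_eq_of_model (R := R) hx0 hR w hw hwx w_complete v.1 v.2
    exact ⟨Quotient.mk'' c, by rw [hplQ]; exact Subtype.ext hc⟩
  have hle : ∀ c, ((pl c : {v : Place K F // 0 < v.ord x}) : Place K F).ord x ≤
      (Function.minimalPeriod (ε • ·) c : ℤ) := fun c =>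
    acl_place_ord_le_minimalPeriod hx0 ε e₀ he₀ hε w hw hwx w_x w_div c
  have hexact := (acl_eq_of_sum_eq
    (P := {v : Place K F // 0 < v.ord x})
    (Q := MulAction.orbitRel.Quotient (Subgroup.zpowers ε) C)
    (fun v => (v.1.ord x).toNat) (fun q => Nat.card q.orbit)
    (by
      intro q
      induction q using Quotient.inductionOn' with
      | h c =>
        rw [MulAction.orbitRel.Quotient.orbit_mk]
        have : Nonempty (MulAction.orbit (Subgroup.zpowers ε) c) :=
          (MulAction.nonempty_orbit c).to_subtype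
        exact Nat.card_pos)
    plQ hsurj
    (by
      intro q
      induction q using Quotient.inductionOn' with
      | h c =>
        rw [hplQ, MulAction.orbitRel.Quotient.orbit_mk, Nat.card_eq_fintype_card,
          ← MulAction.minimalPeriod_eq_card]
        have := hle c
        omega)
    (by
      have h1 : ∑ p : {v : Place K F // 0 < v.ord x}, (p.1.ord x).toNat = n := by
        have h2 : ((∑ p : {v : Place K F // 0 < v.ord x}, (p.1.ord x).toNat : ℕ) : ℤ) = n := by
          rw [← hsum]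
          push_cast
          have h3 : ∑ p : {v : Place K F // 0 < v.ord x}, (((p.1.ord x).toNat : ℕ) : ℤ)
              = ∑ p : {v : Place K F // 0 < v.ord x}, p.1.ord x :=
            Finset.sum_congr rfl fun p _ => Int.toNat_of_nonneg p.2.le
          rw [h3]
          rw [← Finset.sum_subtype (p := fun v : Place K F => 0 < v.ord x)
            (f := fun v : Place K F => v.ord x) hfin.toFinset]
          intro v
          rw [Set.Finite.mem_toFinset]
          rfl
        exact_mod_cast h2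
      rw [h1, ← hC, ← Nat.card_eq_fintype_card,
        Nat.card_congr (MulAction.selfEquivSigmaOrbits' (Subgroup.zpowers ε) C),
        Nat.card_sigma])).2
  -- exactness for `c`
  have hex : ((pl c).1.ord x).toNat = Function.minimalPeriod (ε • ·) c := by
    have := hexact (Quotient.mk'' c)
    rw [hplQ, MulAction.orbitRel.Quotient.orbit_mk, Nat.card_eq_fintype_card,
      ← MulAction.minimalPeriod_eq_card] at this
    exact this
  have hpos : 0 < (pl c).1.ord x := (pl c).2
  have hordx : (pl c).1.ord x = (Function.minimalPeriod (ε • ·) c : ℤ) := by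
    rw [← hex]
    exact (Int.toNat_of_nonneg hpos.le).symm
  refine ⟨(pl c).1, hpos, hordx, ?_⟩
  obtain ⟨m, t, hm, -, -, -, hmul⟩ := (hw c).exists_eq_mul_ord hx0 (hwx c)
  have hxm := hmul x hx0
  rw [w_x c] at hxm
  have hxm' : (e₀ : ℤ) = m * (Function.minimalPeriod (ε • ·) c : ℤ) := by
    rw [hxm]
    congr 1
  set k := Function.minimalPeriod (ε • ·) c with hk
  have hkpos : 0 < k := by
    have : (0 : ℤ) < k := by rw [← hordx]; exact hpos
    exact_mod_cast this
  have hm' : m = ((e₀ / k : ℕ) : ℤ) := by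
    have h1 : ((e₀ / k : ℕ) : ℤ) = (e₀ : ℤ) / (k : ℤ) := by push_cast; rfl
    rw [h1, hxm', Int.mul_ediv_cancel _ (by exact_mod_cast hkpos.ne')]
  intro f hf
  rw [← hm']
  exact hmul f hf

/-- **Exact abstract counting lemma**, completeness half: every place above `x = 0` is the place
of some `c`, with exact multiplicities. -/
theorem acl_exact_complete_of_model {x : F} {n : ℕ} (hx0 : x ≠ 0)
    (hR : ∀ v : Place K F, 0 < v.ord x → ∀ r : R, algebraMap R F r ∈ v.toValuationSubring)
    (hfin : {v : Place K F | 0 < v.ord x}.Finite)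
    (hsum : ∑ v ∈ hfin.toFinset, v.ord x = n)
    {C : Type*} [Fintype C] (hC : Fintype.card C = n) (ε : Equiv.Perm C) (e₀ : ℕ) (he₀ : 0 < e₀)
    (hε : ε ^ e₀ = 1) (w : C → F → ℤ)
    (w_mul : ∀ c f g, f ≠ 0 → g ≠ 0 → w c (f * g) = w c f + w c g)
    (w_add : ∀ c f g, f ≠ 0 → g ≠ 0 → f + g ≠ 0 → min (w c f) (w c g) ≤ w c (f + g))
    (w_const : ∀ c (a : K), a ≠ 0 → w c (algebraMap K F a) = 0)
    (w_x : ∀ c, w c x = e₀)
    (w_eps : ∀ c f, w (ε c) f = w c f)
    (w_div : ∀ c (k : ℕ), k ∣ e₀ → (ε ^ k) c = c → ∀ f, f ≠ 0 → ((e₀ / k : ℕ) : ℤ) ∣ w c f)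
    (w_complete : ∀ f : F, f ≠ 0 → (∀ c, 0 ≤ w c f) →
      ∀ v : Place K F, 0 < v.ord x → 0 ≤ v.ord f) (v : Place K F) (hv : 0 < v.ord x) :
    ∃ c : C, v.ord x = (Function.minimalPeriod (ε • ·) c : ℤ) ∧
      ∀ f : F, f ≠ 0 →
        w c f = ((e₀ / Function.minimalPeriod (ε • ·) c : ℕ) : ℤ) * v.ord f := by
  have hw : ∀ c, IsValFun K (w c) := fun c => ⟨w_mul c, w_add c, w_const c⟩
  have hwx : ∀ c, 0 < w c x := fun c => by rw [w_x c]; exact_mod_cast he₀
  obtain ⟨c, hc⟩ := acl_exists_place_eq_of_model (R := R) hx0 hR w hw hwx w_complete v hv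
  obtain ⟨v', hv'pos, hv'x, hv'⟩ := acl_exact_of_model (R := R) hx0 hR hfin hsum hC ε e₀ he₀ hε w
    w_mul w_add w_const w_x w_eps w_div w_complete c
  -- `v' = v`: both have the valuation ring of `w c`
  have hvv' : v' = v := by
    rw [← hc]
    apply Place.ext
    ext f
    rw [IsValFun.place_toValuationSubring]
    by_cases hf : f = 0
    · subst hf
      simp
    · rw [(hw c).mem_valSubring_iff_of_ne_zero hf, acl_mem_iff_ord_nonneg _ hf]
      have h1 := hv' f hf
      have hk : 0 < ((e₀ / Function.minimalPeriod (ε • ·) c : ℕ) : ℤ) := by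
        have hx1 := hv' x hx0
        rw [w_x c] at hx1
        by_contra hcon
        have h0 : ((e₀ / Function.minimalPeriod (ε • ·) c : ℕ) : ℤ) = 0 := by
          have : 0 ≤ ((e₀ / Function.minimalPeriod (ε • ·) c : ℕ) : ℤ) := Int.natCast_nonneg _
          omega
        rw [h0, zero_mul] at hx1
        have : (0 : ℤ) < e₀ := by exact_mod_cast he₀
        omega
      rw [h1]
      constructor
      · intro h
        exact mul_nonneg hk.le h
      · intro h
        exact nonneg_of_mul_nonneg_right h hk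
  subst hvv'
  exact ⟨c, hv'x, hv'⟩

end Model

variable [IsAlgClosed K] [CharZero K]

/-- **Exact abstract counting lemma** (final form, completeness half). -/
theorem acl_exact_complete {x : F} {n : ℕ} (hx : IsSepVar K x n)
    {C : Type*} [Fintype C] (hC : Fintype.card C = n) (ε : Equiv.Perm C) (e₀ : ℕ) (he₀ : 0 < e₀)
    (hε : ε ^ e₀ = 1) (w : C → F → ℤ)
    (w_mul : ∀ c f g, f ≠ 0 → g ≠ 0 → w c (f * g) = w c f + w c g)
    (w_add : ∀ c f g, f ≠ 0 → g ≠ 0 → f + g ≠ 0 → min (w c f) (w c g) ≤ w c (f + g))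
    (w_const : ∀ c (a : K), a ≠ 0 → w c (algebraMap K F a) = 0)
    (w_x : ∀ c, w c x = e₀)
    (w_eps : ∀ c f, w (ε c) f = w c f)
    (w_div : ∀ c (k : ℕ), k ∣ e₀ → (ε ^ k) c = c → ∀ f, f ≠ 0 → ((e₀ / k : ℕ) : ℤ) ∣ w c f)
    (w_complete : ∀ f : F, f ≠ 0 → (∀ c, 0 ≤ w c f) →
      ∀ v : Place K F, 0 < v.ord x → 0 ≤ v.ord f) (v : Place K F) (hv : 0 < v.ord x) :
    ∃ c : C, v.ord x = (Function.minimalPeriod (ε • ·) c : ℤ) ∧
      ∀ f : F, f ≠ 0 →
        w c f = ((e₀ / Function.minimalPeriod (ε • ·) c : ℕ) : ℤ) * v.ord f := by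
  have hx0 : x ≠ 0 := by
    rintro rfl
    exact hx.transcendental isAlgebraic_zero
  have hfd := hx.finite
  have hD : IsDedekindDomain (algModel K x) := algModel_isDedekindDomain hx.transcendental
  have hFr : IsFractionRing (algModel K x) F := algModel_isFractionRing
  have hset : {v : Place K F | 0 < v.ord x} = placesOver x (0 : K) := by
    ext v
    simp [placesOver]
  have hfin : {v : Place K F | 0 < v.ord x}.Finite := by
    rw [hset]; exact finite_placesOver hx 0
  have hsum : ∑ v ∈ hfin.toFinset, v.ord x = n := by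
    have h := sum_ord_placesOver hx (0 : K)
    rw [← h]
    refine Finset.sum_congr ?_ ?_
    · ext v
      simp [placesOver]
    · intro v _
      simp
  exact acl_exact_complete_of_model (R := algModel K x) hx0
    (fun v hv r => Place.algModel_le v (acl_mem_of_ord_nonneg v hv.le) r)
    hfin hsum hC ε e₀ he₀ hε w w_mul w_add w_const w_x w_eps w_div w_complete v hv

/-- **Exact abstract counting lemma** (final form, existence half). -/
theorem acl_exact {x : F} {n : ℕ} (hx : IsSepVar K x n)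
    {C : Type*} [Fintype C] (hC : Fintype.card C = n) (ε : Equiv.Perm C) (e₀ : ℕ) (he₀ : 0 < e₀)
    (hε : ε ^ e₀ = 1) (w : C → F → ℤ)
    (w_mul : ∀ c f g, f ≠ 0 → g ≠ 0 → w c (f * g) = w c f + w c g)
    (w_add : ∀ c f g, f ≠ 0 → g ≠ 0 → f + g ≠ 0 → min (w c f) (w c g) ≤ w c (f + g))
    (w_const : ∀ c (a : K), a ≠ 0 → w c (algebraMap K F a) = 0)
    (w_x : ∀ c, w c x = e₀)
    (w_eps : ∀ c f, w (ε c) f = w c f)
    (w_div : ∀ c (k : ℕ), k ∣ e₀ → (ε ^ k) c = c → ∀ f, f ≠ 0 → ((e₀ / k : ℕ) : ℤ) ∣ w c f)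
    (w_complete : ∀ f : F, f ≠ 0 → (∀ c, 0 ≤ w c f) →
      ∀ v : Place K F, 0 < v.ord x → 0 ≤ v.ord f) (c : C) :
    ∃ v : Place K F, 0 < v.ord x ∧ v.ord x = (Function.minimalPeriod (ε • ·) c : ℤ) ∧
      ∀ f : F, f ≠ 0 →
        w c f = ((e₀ / Function.minimalPeriod (ε • ·) c : ℕ) : ℤ) * v.ord f := by
  have hx0 : x ≠ 0 := by
    rintro rfl
    exact hx.transcendental isAlgebraic_zero
  have hfd := hx.finite
  have hD : IsDedekindDomain (algModel K x) := algModel_isDedekindDomain hx.transcendental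
  have hFr : IsFractionRing (algModel K x) F := algModel_isFractionRing
  have hset : {v : Place K F | 0 < v.ord x} = placesOver x (0 : K) := by
    ext v
    simp [placesOver]
  have hfin : {v : Place K F | 0 < v.ord x}.Finite := by
    rw [hset]; exact finite_placesOver hx 0
  have hsum : ∑ v ∈ hfin.toFinset, v.ord x = n := by
    have h := sum_ord_placesOver hx (0 : K)
    rw [← h]
    refine Finset.sum_congr ?_ ?_
    · ext v
      simp [placesOver]
    · intro v _
      simp
  exact acl_exact_of_model (R := algModel K x) hx0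
    (fun v hv r => Place.algModel_le v (acl_mem_of_ord_nonneg v hv.le) r)
    hfin hsum hC ε e₀ he₀ hε w w_mul w_add w_const w_x w_eps w_div w_complete c

end Fermat.Agent.Jac.DictC
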