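import Mathlib
import Fermat.Agent.Jac.DictC.ACLExact
import Fermat.Agent.Jac.DictC.ModFinal
import Fermat.Agent.X0.RR7.LocalFin

/-!
# Program J, node J-DICT (D2): every place of `Fc N` is a point place or a cusp place

Exact dictionary between the places of the function field `Fc N` of `X₀(N)` over `ℂ` and the points
of `ℍ ∪ {cusps}`:

* `exists_point_of_place` : a place `v` with `0 ≤ v.ord j` is the place of a point `z : ℍ`:
  `ordAtPt (Psi N) z f = e * v.ord f` for all `f ≠ 0`, where `e` is the **exact** order of the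
  stabiliser of `z` in `Γ₀(N) / ±1`: there is `γ ∈ Γ₀(N)` of finite order fixing `z` whose
  derivative at `z` (`= (denom γ z) ^ (-2)`) is a primitive `e`-th root of unity;
* `exists_cusp_of_place` : a place `v` with `v.ord j < 0` is the place of a cusp `c⁻¹ ∞`:
  `wInf N c f = (N / k) * v.ord f` where `k` (the width) satisfies `T ^ k • c = c`, `k ∣ N`.
-/

set_option autoImplicit false
set_option linter.unusedSectionVars false
set_option linter.style.haveILetI false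

namespace Fermat.Agent.Jac.DictC

open Fermat.Agent.X0

open AlgebraicCurve IntermediateField ModularCurve MulAction Function UpperHalfPlane
open scoped MatrixGroups

/-! ## The `denom` cocycle for `SL(2, ℤ)` -/

section Cocycle

theorem sigma_SL (h : SL(2, ℤ)) (w : ℂ) : σ (h : GL (Fin 2) ℝ) w = w := by
  have hpos' : 0 < ((h : GL (Fin 2) ℝ)).det.val := by
    simp
  unfold σ
  rw [if_pos hpos']
  rfl

theorem denom_mul_SL (g h : SL(2, ℤ)) (z : ℍ) :
    denom ((g * h : SL(2, ℤ)) : GL (Fin 2) ℝ) z =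
      denom (g : GL (Fin 2) ℝ) ((h • z : ℍ) : ℂ) * denom (h : GL (Fin 2) ℝ) z := by
  have h1 := denom_cocycle_σ (g : GL (Fin 2) ℝ) (h : GL (Fin 2) ℝ) z
  rw [sigma_SL] at h1
  have h2 : ((g * h : SL(2, ℤ)) : GL (Fin 2) ℝ) = (g : GL (Fin 2) ℝ) * (h : GL (Fin 2) ℝ) := by
    rw [map_mul, map_mul]
  rw [h2, h1]
  rfl

theorem denom_one_SL (z : ℍ) : denom ((1 : SL(2, ℤ)) : GL (Fin 2) ℝ) z = 1 := by
  have h2 : ((1 : SL(2, ℤ)) : GL (Fin 2) ℝ) = 1 := by
    rw [map_one, map_one]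
  rw [h2]
  simp [denom]

/-- At a fixed point, `denom` is multiplicative in powers. -/
theorem denom_pow_of_smul_eq {g : SL(2, ℤ)} {z0 : ℍ} (hz : g • z0 = z0) (k : ℕ) :
    denom ((g ^ k : SL(2, ℤ)) : GL (Fin 2) ℝ) z0 = denom (g : GL (Fin 2) ℝ) z0 ^ k := by
  induction k with
  | zero => rw [pow_zero, pow_zero, denom_one_SL]
  | succ k ih =>
    rw [pow_succ, denom_mul_SL, hz, ih, pow_succ]

theorem pow_smul_eq_of_smul_eq {g : SL(2, ℤ)} {z0 : ℍ} (hz : g • z0 = z0) (k : ℕ) :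
    g ^ k • z0 = z0 := by
  induction k with
  | zero => rw [pow_zero, one_smul]
  | succ k ih => rw [pow_succ, mul_smul, hz, ih]

/-- Conjugation: `denom (h⁻¹ g h) (h⁻¹ z0) = denom g z0` if `g z0 = z0`. -/
theorem denom_conj_of_smul_eq {g : SL(2, ℤ)} {z0 : ℍ} (hz : g • z0 = z0) (h : SL(2, ℤ)) :
    denom ((h⁻¹ * g * h : SL(2, ℤ)) : GL (Fin 2) ℝ) ((h⁻¹ • z0 : ℍ) : ℂ) =
      denom (g : GL (Fin 2) ℝ) z0 := by
  have e1 : h • (h⁻¹ • z0) = z0 := smul_inv_smul h z0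
  have h1 := denom_mul_SL (h⁻¹ * g) h (h⁻¹ • z0)
  rw [e1] at h1
  have h2 := denom_mul_SL h⁻¹ g z0
  rw [hz] at h2
  have h3 := denom_mul_SL h⁻¹ h (h⁻¹ • z0)
  rw [inv_mul_cancel, denom_one_SL, e1] at h3
  rw [h1, h2, mul_assoc, mul_comm (denom (g : GL (Fin 2) ℝ) z0), ← mul_assoc, ← h3, one_mul]

theorem conj_smul_of_smul_eq {g : SL(2, ℤ)} {z0 : ℍ} (hz : g • z0 = z0) (h : SL(2, ℤ)) :
    (h⁻¹ * g * h) • (h⁻¹ • z0) = h⁻¹ • z0 := by
  rw [mul_smul, mul_smul, smul_inv_smul, hz]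

end Cocycle

variable (N : ℕ) [NeZero N]

/-! ## Interior points -/

section Interior

/-- **Exact form of `card_placesOver_of_wPt`**: every place over `j = a` is the place of some
coset `c`, with ramification index the orbit length `k` of `c` under `g`, and
`wPt N z0 c = (e₀ / k) · ord`. -/
theorem exists_coset_of_place_wPt (a : Kc) (z0 : ℍ) (g : SL(2, ℤ)) (e₀ : ℕ)
    (he₀ : 0 < e₀) (hz : g • z0 = z0)
    (hg : ∀ c : SL(2, ℤ) ⧸ CongruenceSubgroup.Gamma0 N, g ^ e₀ • c = c)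
    (hx : ∀ c, wPt N z0 c (jBar N - algebraMap Kc (Fc N) a) = e₀)
    (hdvd : ∀ c f, f ≠ 0 →
      (e₀ : ℤ) ∣ (Nat.card (orbit (Subgroup.zpowers g) c) : ℤ) * wPt N z0 c f)
    (v : Place Kc (Fc N)) (hv : 0 < v.ord (jBar N - algebraMap Kc (Fc N) a)) :
    ∃ (c : SL(2, ℤ) ⧸ CongruenceSubgroup.Gamma0 N) (k : ℕ), 0 < k ∧ k ∣ e₀ ∧ g ^ k • c = c ∧
      v.ord (jBar N - algebraMap Kc (Fc N) a) = k ∧
      ∀ f : Fc N, f ≠ 0 → wPt N z0 c f = ((e₀ / k : ℕ) : ℤ) * v.ord f := by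
  classical
  have hsep := jBar_isSepVar N
  have hdist := thetaC_injective_cosets N
  letI : Fintype (SL(2, ℤ) ⧸ CongruenceSubgroup.Gamma0 N) := Fintype.ofFinite _
  haveI : FiniteDimensional Kc⟮jBar N⟯ (Fc N) := hsep.finite
  have hcard : Fintype.card (SL(2, ℤ) ⧸ CongruenceSubgroup.Gamma0 N) =
      Module.finrank Kc⟮jBar N⟯ (Fc N) := by
    rw [fintype_card_cosets, hsep.finrank_eq]
  set x : Fc N := jBar N - algebraMap Kc (Fc N) a with hxdef
  have hxsep : IsSepVar Kc x (dedekindPsi N) := isSepVar_sub_const hsep a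
  have hx0 : x ≠ 0 := by
    intro h0
    exact hxsep.transcendental (h0 ▸ isAlgebraic_zero)
  have hE : Kc⟮jBar N⟯ ≤ Kc⟮x⟯ := (adjoin_simple_sub_algebraMap (jBar N) a).ge
  obtain ⟨c, hcx, hcf⟩ := acl_exact_complete (K := Kc) (F := Fc N) hxsep
    (C := SL(2, ℤ) ⧸ CongruenceSubgroup.Gamma0 N) (fintype_card_cosets N)
    (MulAction.toPerm g) e₀ he₀ (toPerm_pow_eq_one_of_smul g e₀ hg) (wPt N z0)
    (wPt_mul N z0) (wPt_add N z0) (wPt_alg N z0) hx
    (fun c f => by rw [MulAction.toPerm_apply]; exact wPt_smul N hz c f)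
    (fun c k hk hfix f hf => dvd_of_dvd_natCard_orbit_mul g c he₀ hk hfix (hdvd c f hf))
    (fun f hf hpos v hv => by
      let c₀ : SL(2, ℤ) ⧸ CongruenceSubgroup.Gamma0 N := ((1 : SL(2, ℤ)) : _)
      have hW := isValLike_wPt N z0 c₀
      have hy : 0 < wPt N z0 c₀ x := by
        rw [hx c₀]
        exact_mod_cast he₀
      have hfint : IsIntegral Kc⟮jBar N⟯ f :=
        (Algebra.IsIntegral.of_finite Kc⟮jBar N⟯ (Fc N)).isIntegral f
      refine ord_nonneg_of_minpoly_coeff hW hx0 hy Kc⟮jBar N⟯ hE hfint (fun i => ?_) v hv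
      rcases wPt_int N hcard hdist z0 f hf hpos i with h | h
      · exact Or.inl h
      · exact Or.inr (h c₀)) v hv
  set k := minimalPeriod ((MulAction.toPerm g :
    Equiv.Perm (SL(2, ℤ) ⧸ CongruenceSubgroup.Gamma0 N)) • ·) c with hk
  have hfun : (((MulAction.toPerm g :
      Equiv.Perm (SL(2, ℤ) ⧸ CongruenceSubgroup.Gamma0 N)) • ·) :
      SL(2, ℤ) ⧸ CongruenceSubgroup.Gamma0 N → SL(2, ℤ) ⧸ CongruenceSubgroup.Gamma0 N) =
      (g • ·) := rfl
  have hkpos : 0 < k := by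
    have : (0 : ℤ) < k := by rw [← hcx]; exact hv
    exact_mod_cast this
  have hper : IsPeriodicPt (g • ·) e₀ c := by
    unfold IsPeriodicPt IsFixedPt
    rw [smul_iterate]
    exact hg c
  have hkdvd : k ∣ e₀ := by
    rw [hk, hfun]
    exact hper.minimalPeriod_dvd
  have hfix : g ^ k • c = c := by
    have h := isPeriodicPt_minimalPeriod (g • ·) c
    unfold IsPeriodicPt IsFixedPt at h
    rw [smul_iterate] at h
    rw [hk, hfun]
    exact h
  exact ⟨c, k, hkpos, hkdvd, hfix, hcx, hcf⟩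

/-- From a coset to a point: the place attached to `(z0, c)` is the place of the point
`z = (out c)⁻¹ • z0`, and the stabiliser of `z` in `Γ₀(N)` contains the rotation
`γ = (out c)⁻¹ g ^ k (out c)` of exact order `e₀ / k`. -/
theorem exists_point_of_place_over (a : Kc) (z0 : ℍ) (g : SL(2, ℤ)) (e₀ : ℕ)
    (he₀ : 0 < e₀) (hz : g • z0 = z0)
    (hg : ∀ c : SL(2, ℤ) ⧸ CongruenceSubgroup.Gamma0 N, g ^ e₀ • c = c)
    (hx : ∀ c, wPt N z0 c (jBar N - algebraMap Kc (Fc N) a) = e₀)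
    (hdvd : ∀ c f, f ≠ 0 →
      (e₀ : ℤ) ∣ (Nat.card (orbit (Subgroup.zpowers g) c) : ℤ) * wPt N z0 c f)
    (hfin : IsOfFinOrder g)
    (hprim : IsPrimitiveRoot ((denom (g : GL (Fin 2) ℝ) z0) ^ 2) e₀)
    (v : Place Kc (Fc N)) (hv : 0 < v.ord (jBar N - algebraMap Kc (Fc N) a)) :
    ∃ (z : ℍ) (γ : SL(2, ℤ)) (e : ℕ), 0 < e ∧ γ ∈ CongruenceSubgroup.Gamma0 N ∧
      IsOfFinOrder γ ∧ γ • z = z ∧ IsPrimitiveRoot ((denom (γ : GL (Fin 2) ℝ) z) ^ 2) e ∧
      jFun z = jFun z0 ∧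
      (e : ℤ) * v.ord (jBar N - algebraMap Kc (Fc N) a) = e₀ ∧
      ∀ f : Fc N, f ≠ 0 → ordAtPt (R := Rb N) (Psi N) z f = (e : ℤ) * v.ord f := by
  obtain ⟨c, k, hkpos, hkdvd, hfix, hvx, hcf⟩ :=
    exists_coset_of_place_wPt N a z0 g e₀ he₀ hz hg hx hdvd v hv
  set h : SL(2, ℤ) := Quotient.out c with hh
  have hc : ((h : SL(2, ℤ)) : SL(2, ℤ) ⧸ CongruenceSubgroup.Gamma0 N) = c := by
    rw [hh]; exact Quotient.out_eq' c
  have hzk : g ^ k • z0 = z0 := pow_smul_eq_of_smul_eq hz k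
  refine ⟨h⁻¹ • z0, h⁻¹ * g ^ k * h, e₀ / k, Nat.div_pos (Nat.le_of_dvd he₀ hkdvd) hkpos,
    ?_, ?_, conj_smul_of_smul_eq hzk h, ?_, ?_, ?_, ?_⟩
  · -- membership in `Γ₀(N)`
    have h1 : g ^ k • (h : SL(2, ℤ) ⧸ CongruenceSubgroup.Gamma0 N) =
        (h : SL(2, ℤ) ⧸ CongruenceSubgroup.Gamma0 N) := by rw [hc]; exact hfix
    rw [MulAction.Quotient.smul_mk, smul_eq_mul] at h1
    have h2 := QuotientGroup.eq.mp h1.symm
    rwa [← mul_assoc] at h2
  · -- finite order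
    obtain ⟨n, hn, hgn⟩ := isOfFinOrder_iff_pow_eq_one.mp hfin
    refine isOfFinOrder_iff_pow_eq_one.mpr ⟨n, hn, ?_⟩
    have : (h⁻¹ * g ^ k * h) ^ n = h⁻¹ * (g ^ k) ^ n * h := by
      have := conj_pow (a := h⁻¹) (i := n) (b := g ^ k)
      rwa [inv_inv] at this
    rw [this, ← pow_mul, mul_comm k n, pow_mul, hgn, one_pow, mul_one, inv_mul_cancel]
  · -- primitive root
    rw [denom_conj_of_smul_eq hzk h, denom_pow_of_smul_eq hz k, ← pow_mul, mul_comm k 2, pow_mul]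
    exact hprim.pow_of_dvd hkpos.ne' hkdvd
  · rw [jFun_smul]
  · rw [hvx]
    have : ((e₀ / k : ℕ) : ℤ) * (k : ℤ) = ((e₀ / k * k : ℕ) : ℤ) := by push_cast; rfl
    rw [this, Nat.div_mul_cancel hkdvd]
  · intro f hf
    rw [← hcf f hf]
    unfold wPt thetaC cosetHom
    rw [ordAtPt_conjHom]

end Interior

/-! ## Every place where `j` is finite -/

theorem isPrimitiveRoot_denom_one (z0 : ℍ) :
    IsPrimitiveRoot ((denom ((1 : SL(2, ℤ)) : GL (Fin 2) ℝ) z0) ^ 2) 1 := by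
  rw [denom_one_SL, one_pow]
  exact IsPrimitiveRoot.one

theorem isOfFinOrder_modS : IsOfFinOrder (ModularGroup.S : SL(2, ℤ)) :=
  isOfFinOrder_iff_pow_eq_one.mpr ⟨4, by norm_num, by decide⟩

theorem isOfFinOrder_modST : IsOfFinOrder (ModularGroup.S * ModularGroup.T : SL(2, ℤ)) :=
  isOfFinOrder_iff_pow_eq_one.mpr ⟨6, by norm_num, by decide⟩

/-- **(D2), points.** Every place of `Fc N` at which `j` is finite is the place of a point `z : ℍ`,
with multiplicity the exact order `e` of the stabiliser of `z` in `Γ₀(N) / ±1`. -/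
theorem exists_point_of_place (v : Place Kc (Fc N)) (hv : 0 ≤ v.ord (jBar N)) :
    ∃ (z : ℍ) (γ : SL(2, ℤ)) (e : ℕ), 0 < e ∧ γ ∈ CongruenceSubgroup.Gamma0 N ∧
      IsOfFinOrder γ ∧ γ • z = z ∧ IsPrimitiveRoot ((denom (γ : GL (Fin 2) ℝ) z) ^ 2) e ∧
      0 < v.ord (jBar N - algebraMap Kc (Fc N) (jFun z)) ∧
      ∀ f : Fc N, f ≠ 0 → ordAtPt (R := Rb N) (Psi N) z f = (e : ℤ) * v.ord f := by
  obtain ⟨a, ha⟩ := RR7.exists_ord_sub_pos (jBar_isSepVar N) v hv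
  by_cases h0 : a = 0
  · subst h0
    obtain ⟨z, γ, e, he, hγ, hfin, hγz, hprim, hj, -, hf⟩ :=
      exists_point_of_place_over N 0 UpperHalfPlane.ρ (ModularGroup.S * ModularGroup.T) 3
        (by norm_num) ST_smul_ρ (modST_cube_smul_coset N) (wPt_jBar_sub_ρ N) (wPt_dvd_ρ N)
        isOfFinOrder_modST isPrimitiveRoot_denom_ST_ρ v ha
    refine ⟨z, γ, e, he, hγ, hfin, hγz, hprim, ?_, hf⟩
    rw [hj, jFun_ρ]
    exact ha
  by_cases h1 : a = 1728
  · subst h1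
    obtain ⟨z, γ, e, he, hγ, hfin, hγz, hprim, hj, -, hf⟩ :=
      exists_point_of_place_over N 1728 UpperHalfPlane.I ModularGroup.S 2 two_pos S_smul_I
        (modS_sq_smul_coset N) (wPt_jBar_sub_I N) (wPt_dvd_I N)
        isOfFinOrder_modS isPrimitiveRoot_denom_S_I v ha
    refine ⟨z, γ, e, he, hγ, hfin, hγz, hprim, ?_, hf⟩
    rw [hj, jFun_I]
    exact ha
  · obtain ⟨z0, hz0⟩ := jFun_surjective (iotaC a)
    have hz0' : jFun z0 = a := hz0
    have hj0 : jFun z0 ≠ 0 := by rw [hz0']; exact h0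
    have hj1 : jFun z0 ≠ 1728 := by rw [hz0']; exact h1
    obtain ⟨z, γ, e, he, hγ, hfin, hγz, hprim, hj, -, hf⟩ :=
      exists_point_of_place_over N a z0 1 1 one_pos (one_smul _ z0)
        (fun c => by rw [pow_one, one_smul])
        (fun c => wPt_jBar_sub_generic N z0 c a hz0.symm hj0 hj1)
        (fun c f _ => wPt_dvd_one N z0 1 c f) IsOfFinOrder.one (isPrimitiveRoot_denom_one z0) v ha
    refine ⟨z, γ, e, he, hγ, hfin, hγz, hprim, ?_, hf⟩
    rw [hj, hz0']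
    exact ha

/-! ## The cusps -/

/-- **(D2), cusps.** Every pole of `j` is the place of a cusp `c⁻¹ ∞`: `wInf N c = (N / k) · ord`
with `k` the width (`T ^ k • c = c`, `k ∣ N`, `k` the pole order of `j`). -/
theorem exists_cusp_of_place (v : Place Kc (Fc N)) (hv : v.ord (jBar N) < 0) :
    ∃ (c : SL(2, ℤ) ⧸ CongruenceSubgroup.Gamma0 N) (k : ℕ), 0 < k ∧ k ∣ N ∧
      ModularGroup.T ^ k • c = c ∧ v.ord (jBar N) = -(k : ℤ) ∧
      ∀ f : Fc N, f ≠ 0 → wInf N c f = ((N / k : ℕ) : ℤ) * v.ord f := by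
  classical
  have hsep := jBar_isSepVar N
  have hdist := thetaC_injective_cosets N
  letI : Fintype (SL(2, ℤ) ⧸ CongruenceSubgroup.Gamma0 N) := Fintype.ofFinite _
  haveI : FiniteDimensional Kc⟮jBar N⟯ (Fc N) := hsep.finite
  have hcard : Fintype.card (SL(2, ℤ) ⧸ CongruenceSubgroup.Gamma0 N) =
      Module.finrank Kc⟮jBar N⟯ (Fc N) := by
    rw [fintype_card_cosets, hsep.finrank_eq]
  have hN : 0 < N := Nat.pos_of_ne_zero (NeZero.ne N)
  set x : Fc N := (jBar N)⁻¹ with hxdef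
  have hxsep : IsSepVar Kc x (dedekindPsi N) := isSepVar_inv hsep
  have hx0 : x ≠ 0 := by
    intro h0
    exact hxsep.transcendental (h0 ▸ isAlgebraic_zero)
  have hE : Kc⟮jBar N⟯ ≤ Kc⟮x⟯ := (adjoin_simple_inv (jBar N)).ge
  have hvx : 0 < v.ord x := by
    rw [hxdef, Place.ord_inv]
    omega
  obtain ⟨c, hcx, hcf⟩ := acl_exact_complete (K := Kc) (F := Fc N) hxsep
    (C := SL(2, ℤ) ⧸ CongruenceSubgroup.Gamma0 N) (fintype_card_cosets N)
    (MulAction.toPerm ModularGroup.T) N hN (toPerm_T_pow_eq_one N) (wInf N)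
    (wInf_mul N) (wInf_add N) (wInf_const N) (wInf_x N) (wInf_eps N)
    (fun c k hk hfix f hf => wInf_div N c k hk hfix f hf)
    (fun f hf hpos v hv => by
      let c₀ : SL(2, ℤ) ⧸ CongruenceSubgroup.Gamma0 N := ((1 : SL(2, ℤ)) : _)
      have hW := isValLike_wInf N c₀
      have hy : 0 < wInf N c₀ x := by
        rw [wInf_x N c₀]
        exact_mod_cast hN
      have hfint : IsIntegral Kc⟮jBar N⟯ f :=
        (Algebra.IsIntegral.of_finite Kc⟮jBar N⟯ (Fc N)).isIntegral f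
      refine ord_nonneg_of_minpoly_coeff hW hx0 hy Kc⟮jBar N⟯ hE hfint (fun i => ?_) v hv
      rcases coeff_minpoly_wInf_nonneg N hcard hdist hf hpos i with h | h
      · exact Or.inl h
      · exact Or.inr (h c₀)) v hvx
  set k := minimalPeriod ((MulAction.toPerm ModularGroup.T :
    Equiv.Perm (SL(2, ℤ) ⧸ CongruenceSubgroup.Gamma0 N)) • ·) c with hk
  have hfun : (((MulAction.toPerm ModularGroup.T :
      Equiv.Perm (SL(2, ℤ) ⧸ CongruenceSubgroup.Gamma0 N)) • ·) :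
      SL(2, ℤ) ⧸ CongruenceSubgroup.Gamma0 N → SL(2, ℤ) ⧸ CongruenceSubgroup.Gamma0 N) =
      ((ModularGroup.T : SL(2, ℤ)) • ·) := rfl
  have hkpos : 0 < k := by
    have : (0 : ℤ) < k := by rw [← hcx]; exact hvx
    exact_mod_cast this
  have hTN : ∀ c : SL(2, ℤ) ⧸ CongruenceSubgroup.Gamma0 N, ModularGroup.T ^ N • c = c := by
    intro c
    have := congrArg (fun σ : Equiv.Perm (SL(2, ℤ) ⧸ CongruenceSubgroup.Gamma0 N) => σ c)
      (toPerm_T_pow_eq_one N)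
    simp only [Equiv.Perm.one_apply] at this
    rwa [toPerm_pow_apply] at this
  have hper : IsPeriodicPt ((ModularGroup.T : SL(2, ℤ)) • ·) N c := by
    unfold IsPeriodicPt IsFixedPt
    rw [smul_iterate]
    exact hTN c
  have hkdvd : k ∣ N := by
    rw [hk, hfun]
    exact hper.minimalPeriod_dvd
  have hfix : ModularGroup.T ^ k • c = c := by
    have h := isPeriodicPt_minimalPeriod ((ModularGroup.T : SL(2, ℤ)) • ·) c
    unfold IsPeriodicPt IsFixedPt at h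
    rw [smul_iterate] at h
    rw [hk, hfun]
    exact h
  refine ⟨c, k, hkpos, hkdvd, hfix, ?_, hcf⟩
  rw [hxdef, Place.ord_inv] at hcx
  omega

/-- **(D2).** Every place of `Fc N` is a point place or a cusp place. -/
theorem place_point_or_cusp (v : Place Kc (Fc N)) :
    (∃ (z : ℍ) (γ : SL(2, ℤ)) (e : ℕ), 0 < e ∧ γ ∈ CongruenceSubgroup.Gamma0 N ∧
      IsOfFinOrder γ ∧ γ • z = z ∧ IsPrimitiveRoot ((denom (γ : GL (Fin 2) ℝ) z) ^ 2) e ∧
      ∀ f : Fc N, f ≠ 0 → ordAtPt (R := Rb N) (Psi N) z f = (e : ℤ) * v.ord f) ∨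
    (∃ (c : SL(2, ℤ) ⧸ CongruenceSubgroup.Gamma0 N) (k : ℕ), 0 < k ∧ k ∣ N ∧
      ModularGroup.T ^ k • c = c ∧
      ∀ f : Fc N, f ≠ 0 → wInf N c f = ((N / k : ℕ) : ℤ) * v.ord f) := by
  by_cases hv : 0 ≤ v.ord (jBar N)
  · left
    obtain ⟨z, γ, e, he, hγ, hfin, hγz, hprim, -, hf⟩ := exists_point_of_place N v hv
    exact ⟨z, γ, e, he, hγ, hfin, hγz, hprim, hf⟩
  · right
    obtain ⟨c, k, hk, hkN, hfix, -, hf⟩ := exists_cusp_of_place N v (not_le.mp hv)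
    exact ⟨c, k, hk, hkN, hfix, hf⟩

end Fermat.Agent.Jac.DictC
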