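import Mathlib
import Fermat.Agent.X0.ModVal
import Fermat.Agent.X0.Cusp

/-!
# Program J, node J-DICT (D4), analytic part: rotation and periodicity lemmas for *ratios*

* `pow_eq_pow_of_comp_mul_eventuallyEq` : the rotation lemma of `X0/ModVal.lean` for a ratio
  `φ / ψ` in cross-multiplied form: if `φ (g z) ψ z = φ z ψ (g z)` near a fixed point `z0` of `g`
  with `g' z0 = ζ`, then `ζ ^ ord φ = ζ ^ ord ψ`;
* `dvd_ordH_sub_of_isPrimitiveRoot` : on `ℍ`: if `γ ∈ SL(2,ℤ)` fixes `z`, `(denom γ z)^2` is a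
  primitive `e`-th root of unity and `φ (γ τ) ψ τ = φ τ ψ (γ τ)`, then `e ∣ ord_z φ - ord_z ψ`;
* `HasOrdInf.of_mul` : change of the local parameter `q_N = q_{N M} ^ M` at `i∞`.
-/

set_option autoImplicit false

namespace Fermat.Agent.Jac.DictC

open Fermat.Agent.X0

open UpperHalfPlane Filter Topology
open scoped Manifold MatrixGroups

/-- **Rotation lemma for ratios** (cross-multiplied form). -/
theorem pow_eq_pow_of_comp_mul_eventuallyEq {φ ψ g : ℂ → ℂ} {z0 ζ : ℂ}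
    (hφ : AnalyticAt ℂ φ z0) (hφfin : analyticOrderAt φ z0 ≠ ⊤)
    (hψ : AnalyticAt ℂ ψ z0) (hψfin : analyticOrderAt ψ z0 ≠ ⊤)
    (hg : HasDerivAt g ζ z0) (hg0 : g z0 = z0)
    (hinv : ∀ᶠ z in 𝓝 z0, φ (g z) * ψ z = φ z * ψ (g z)) :
    ζ ^ analyticOrderNatAt φ z0 = ζ ^ analyticOrderNatAt ψ z0 := by
  set a := analyticOrderNatAt φ z0 with ha
  set b := analyticOrderNatAt ψ z0 with hb
  have horda : analyticOrderAt φ z0 = a := (Nat.cast_analyticOrderNatAt hφfin).symm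
  have hordb : analyticOrderAt ψ z0 = b := (Nat.cast_analyticOrderNatAt hψfin).symm
  obtain ⟨F, hFa, hF0, hFeq⟩ := (hφ.analyticOrderAt_eq_natCast).mp horda
  obtain ⟨G, hGa, hG0, hGeq⟩ := (hψ.analyticOrderAt_eq_natCast).mp hordb
  have hgc : ContinuousAt g z0 := hg.continuousAt
  have hgt : Tendsto g (𝓝 z0) (𝓝 z0) := by
    have := hgc.tendsto
    rwa [hg0] at this
  have hFeq' : ∀ᶠ z in 𝓝 z0, φ (g z) = (g z - z0) ^ a • F (g z) := hgt.eventually hFeq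
  have hGeq' : ∀ᶠ z in 𝓝 z0, ψ (g z) = (g z - z0) ^ b • G (g z) := hgt.eventually hGeq
  set D : ℂ → ℂ := dslope g z0 with hD
  have hDc : ContinuousAt D z0 := continuousAt_dslope_same.mpr hg.differentiableAt
  have hD0 : D z0 = ζ := by rw [hD, dslope_same, hg.deriv]
  have hgz : ∀ z, g z - z0 = (z - z0) * D z := by
    intro z
    have := sub_smul_dslope g z0 z
    rw [hg0, smul_eq_mul] at this
    exact this.symm
  have key : ∀ᶠ z in 𝓝[≠] z0, D z ^ a * F (g z) * G z = D z ^ b * F z * G (g z) := by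
    rw [eventually_nhdsWithin_iff]
    filter_upwards [hFeq, hFeq', hGeq, hGeq', hinv] with z h1 h2 h3 h4 h5 hz
    have hz' : z - z0 ≠ 0 := sub_ne_zero.mpr hz
    rw [h1, h2, h3, h4, hgz z, mul_pow, mul_pow, smul_eq_mul, smul_eq_mul, smul_eq_mul,
      smul_eq_mul] at h5
    have h6 : (z - z0) ^ (a + b) * (D z ^ a * F (g z) * G z) =
        (z - z0) ^ (a + b) * (D z ^ b * F z * G (g z)) := by
      rw [pow_add]
      linear_combination h5
    exact mul_left_cancel₀ (pow_ne_zero _ hz') h6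
  have hFc : ContinuousAt F z0 := hFa.continuousAt
  have hGc : ContinuousAt G z0 := hGa.continuousAt
  have hFg : Tendsto (fun z => F (g z)) (𝓝 z0) (𝓝 (F z0)) := hFc.tendsto.comp hgt
  have hGg : Tendsto (fun z => G (g z)) (𝓝 z0) (𝓝 (G z0)) := hGc.tendsto.comp hgt
  have hlim1 : Tendsto (fun z => D z ^ a * F (g z) * G z) (𝓝[≠] z0)
      (𝓝 (ζ ^ a * F z0 * G z0)) := by
    have h5 : Tendsto (fun z => D z ^ a * F (g z) * G z) (𝓝 z0)
        (𝓝 (D z0 ^ a * F z0 * G z0)) := ((hDc.tendsto.pow a).mul hFg).mul hGc.tendsto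
    rw [hD0] at h5
    exact h5.mono_left nhdsWithin_le_nhds
  have hlim2 : Tendsto (fun z => D z ^ b * F z * G (g z)) (𝓝[≠] z0)
      (𝓝 (ζ ^ b * F z0 * G z0)) := by
    have h5 : Tendsto (fun z => D z ^ b * F z * G (g z)) (𝓝 z0)
        (𝓝 (D z0 ^ b * F z0 * G z0)) := ((hDc.tendsto.pow b).mul hFc.tendsto).mul hGg
    rw [hD0] at h5
    exact h5.mono_left nhdsWithin_le_nhds
  have hlim3 : Tendsto (fun z => D z ^ a * F (g z) * G z) (𝓝[≠] z0)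
      (𝓝 (ζ ^ b * F z0 * G z0)) :=
    hlim2.congr' (key.mono fun z hz => hz.symm)
  have heq : ζ ^ a * F z0 * G z0 = ζ ^ b * F z0 * G z0 := tendsto_nhds_unique hlim1 hlim3
  have hFG : F z0 * G z0 ≠ 0 := mul_ne_zero hF0 hG0
  have : (ζ ^ a - ζ ^ b) * (F z0 * G z0) = 0 := by linear_combination heq
  rcases mul_eq_zero.mp this with h | h
  · exact sub_eq_zero.mp h
  · exact absurd h hFG

/-- Rotation lemma for ratios on `ℍ`. -/
theorem denom_pow_eq_pow_of_cross {φ ψ : ℍ → ℂ} (hφ : MDiff φ) (hφ0 : φ ≠ 0) (hψ : MDiff ψ)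
    (hψ0 : ψ ≠ 0) (γ : SL(2, ℤ)) (z : ℍ) (hz : γ • z = z)
    (hinv : ∀ τ, φ (γ • τ) * ψ τ = φ τ * ψ (γ • τ)) :
    ((denom (γ : GL (Fin 2) ℝ) z) ^ 2)⁻¹ ^ ordH φ z =
      ((denom (γ : GL (Fin 2) ℝ) z) ^ 2)⁻¹ ^ ordH ψ z := by
  have hg := glDet_pos γ
  have hd := (z.hasStrictDerivAt_smul hg).hasDerivAt
  have hg0 : (fun w : ℂ => (((γ : GL (Fin 2) ℝ) • ofComplex w : ℍ) : ℂ)) (z : ℂ) = (z : ℂ) := by
    show (((γ : GL (Fin 2) ℝ) • ofComplex (z : ℂ) : ℍ) : ℂ) = z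
    rw [ofComplex_apply]
    exact congrArg _ hz
  have hcomp : ∀ᶠ w in 𝓝 (z : ℂ),
      (φ ∘ ofComplex) ((fun w : ℂ => (((γ : GL (Fin 2) ℝ) • ofComplex w : ℍ) : ℂ)) w) *
        (ψ ∘ ofComplex) w =
      (φ ∘ ofComplex) w *
        (ψ ∘ ofComplex) ((fun w : ℂ => (((γ : GL (Fin 2) ℝ) • ofComplex w : ℍ) : ℂ)) w) := by
    refine Eventually.of_forall fun w => ?_
    simp only [Function.comp_apply, ofComplex_apply]
    exact hinv (ofComplex w)
  have key := pow_eq_pow_of_comp_mul_eventuallyEq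
    (analyticAt_comp_ofComplex hφ z) (analyticOrderAt_comp_ofComplex_ne_top hφ hφ0 z)
    (analyticAt_comp_ofComplex hψ z) (analyticOrderAt_comp_ofComplex_ne_top hψ hψ0 z)
    hd hg0 hcomp
  rw [glDet_eq_one γ] at key
  have : ((1 : ℝ) : ℂ) / denom (γ : GL (Fin 2) ℝ) (z : ℂ) ^ 2 =
      (denom (γ : GL (Fin 2) ℝ) z ^ 2)⁻¹ := by
    simp
  rw [this] at key
  exact key

/-- If moreover `(denom γ z) ^ 2` is a primitive `e`-th root of unity, then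
`e ∣ ord_z φ - ord_z ψ`. -/
theorem dvd_ordH_sub_of_isPrimitiveRoot {φ ψ : ℍ → ℂ} (hφ : MDiff φ) (hφ0 : φ ≠ 0)
    (hψ : MDiff ψ) (hψ0 : ψ ≠ 0) (γ : SL(2, ℤ)) (z : ℍ) (hz : γ • z = z)
    (hinv : ∀ τ, φ (γ • τ) * ψ τ = φ τ * ψ (γ • τ)) {e : ℕ}
    (he : IsPrimitiveRoot ((denom (γ : GL (Fin 2) ℝ) z) ^ 2) e) :
    (e : ℤ) ∣ (ordH φ z : ℤ) - (ordH ψ z : ℤ) := by
  have h1 := denom_pow_eq_pow_of_cross hφ hφ0 hψ hψ0 γ z hz hinv
  have he' : IsPrimitiveRoot ((denom (γ : GL (Fin 2) ℝ) z) ^ 2)⁻¹ e := he.inv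
  set ζ := ((denom (γ : GL (Fin 2) ℝ) z) ^ 2)⁻¹ with hζ
  have hζ0 : ζ ≠ 0 := by
    rw [hζ]
    exact inv_ne_zero (pow_ne_zero 2 (denom_ne_zero _ z))
  rw [← he'.zpow_eq_one_iff_dvd, zpow_sub₀ hζ0, zpow_natCast, zpow_natCast, h1,
    div_self (pow_ne_zero _ hζ0)]

/-! ## Change of parameter at `i∞` -/

theorem qN_mul_pow (N M : ℕ) [NeZero N] [NeZero M] (z : ℍ) : qN (N * M) z ^ M = qN N z := by
  unfold qN Function.Periodic.qParam
  rw [← Complex.exp_nat_mul]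
  congr 1
  have hN : (N : ℂ) ≠ 0 := by exact_mod_cast NeZero.ne N
  have hM : (M : ℂ) ≠ 0 := by exact_mod_cast NeZero.ne M
  push_cast
  field_simp

/-- A function of order `k` in `q_N` has order `M k` in `q_{N M}`. -/
theorem HasOrdInf.of_mul {N : ℕ} [NeZero N] (M : ℕ) [NeZero M] {F : ℍ → ℂ} {k : ℤ}
    (h : HasOrdInf N F k) : HasOrdInf (N * M) F ((M : ℤ) * k) := by
  obtain ⟨L, hL0, hL⟩ := h
  refine ⟨L, hL0, hL.congr fun z => ?_⟩
  rw [← qN_mul_pow N M z, ← zpow_natCast, ← zpow_mul, mul_neg]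

end Fermat.Agent.Jac.DictC
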