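import Mathlib

/-!
# Program J, node J-DICT (D4), group part: elements of finite order of `SL(2, ℤ)` have `|tr| ≤ 2`

`abs_trace_le_two_of_isOfFinOrder` : by Cayley–Hamilton the traces `s n = tr (γ ^ n)` satisfy
`s (n + 2) = t s (n + 1) - s n`; if `|t| ≥ 3` then `|s n|` is strictly increasing, so `γ ^ n ≠ 1`
for `n ≥ 1`.  Also `trace_conj_T_pow` : conjugates of `T ^ k` have trace `2`.
-/

set_option autoImplicit false

namespace Fermat.Agent.Jac.DictC

open Matrix
open scoped MatrixGroups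

/-- Cayley–Hamilton for a `2 × 2` matrix of determinant `1`. -/
theorem sq_eq_trace_smul_sub_one (M : Matrix (Fin 2) (Fin 2) ℤ) (hdet : M.det = 1) :
    M * M = M.trace • M - 1 := by
  rw [Matrix.det_fin_two] at hdet
  rw [Matrix.trace_fin_two]
  ext i j
  fin_cases i <;> fin_cases j
  · simp only [Fin.zero_eta, Fin.isValue, Matrix.mul_apply, Fin.sum_univ_two, Matrix.sub_apply,
      Matrix.smul_apply, smul_eq_mul, Matrix.one_apply_eq]
    linear_combination (-1 : ℤ) * hdet
  · simp only [Fin.zero_eta, Fin.mk_one, Fin.isValue, Matrix.mul_apply, Fin.sum_univ_two,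
      Matrix.sub_apply, Matrix.smul_apply, smul_eq_mul, Matrix.one_apply_ne, ne_eq, zero_ne_one,
      not_false_eq_true, sub_zero]
    ring
  · simp only [Fin.zero_eta, Fin.mk_one, Fin.isValue, Matrix.mul_apply, Fin.sum_univ_two,
      Matrix.sub_apply, Matrix.smul_apply, smul_eq_mul, Matrix.one_apply_ne, ne_eq, one_ne_zero,
      not_false_eq_true, sub_zero]
    ring
  · simp only [Fin.mk_one, Fin.isValue, Matrix.mul_apply, Fin.sum_univ_two, Matrix.sub_apply,
      Matrix.smul_apply, smul_eq_mul, Matrix.one_apply_eq]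
    linear_combination (-1 : ℤ) * hdet

theorem trace_pow_add_two (M : Matrix (Fin 2) (Fin 2) ℤ) (hdet : M.det = 1) (n : ℕ) :
    (M ^ (n + 2)).trace = M.trace * (M ^ (n + 1)).trace - (M ^ n).trace := by
  have h : M ^ (n + 2) = M.trace • M ^ (n + 1) - M ^ n := by
    rw [pow_add, pow_two, sq_eq_trace_smul_sub_one M hdet, mul_sub, mul_one, Matrix.mul_smul,
      ← pow_succ]
  rw [h, Matrix.trace_sub, Matrix.trace_smul, smul_eq_mul]

/-- If `|tr M| ≥ 3` then `|tr (M ^ n)|` is strictly increasing. -/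
theorem abs_trace_pow_lt (M : Matrix (Fin 2) (Fin 2) ℤ) (hdet : M.det = 1)
    (ht : 3 ≤ |M.trace|) (n : ℕ) : |(M ^ n).trace| < |(M ^ (n + 1)).trace| := by
  induction n with
  | zero =>
    rw [pow_zero, zero_add, pow_one, Matrix.trace_one]
    simp only [Fintype.card_fin, Nat.cast_ofNat]
    rw [abs_of_pos (by norm_num : (0 : ℤ) < 2)]
    omega
  | succ n ih =>
    rw [show n + 1 + 1 = n + 2 from rfl, trace_pow_add_two M hdet n]
    have h1 : |M.trace * (M ^ (n + 1)).trace| - |(M ^ n).trace| ≤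
        |M.trace * (M ^ (n + 1)).trace - (M ^ n).trace| := abs_sub_abs_le_abs_sub _ _
    rw [abs_mul] at h1
    have h2 : 3 * |(M ^ (n + 1)).trace| ≤ |M.trace| * |(M ^ (n + 1)).trace| :=
      mul_le_mul_of_nonneg_right ht (abs_nonneg _)
    have h3 : 0 ≤ |(M ^ n).trace| := abs_nonneg _
    omega

theorem two_lt_abs_trace_pow (M : Matrix (Fin 2) (Fin 2) ℤ) (hdet : M.det = 1)
    (ht : 3 ≤ |M.trace|) (n : ℕ) (hn : 0 < n) : 2 < |(M ^ n).trace| := by
  induction n with
  | zero => omega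
  | succ n ih =>
    rcases Nat.eq_zero_or_pos n with rfl | hpos
    · rw [zero_add, pow_one]; omega
    · have := abs_trace_pow_lt M hdet ht n
      have := ih hpos
      omega

/-- **Elements of finite order of `SL(2, ℤ)` have `|tr| ≤ 2`.** -/
theorem abs_trace_le_two_of_isOfFinOrder (γ : SL(2, ℤ)) (h : IsOfFinOrder γ) :
    |(γ : Matrix (Fin 2) (Fin 2) ℤ).trace| ≤ 2 := by
  by_contra hcon
  have ht : 3 ≤ |(γ : Matrix (Fin 2) (Fin 2) ℤ).trace| := by omega
  obtain ⟨n, hn, hγn⟩ := isOfFinOrder_iff_pow_eq_one.mp h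
  have h1 := two_lt_abs_trace_pow (γ : Matrix (Fin 2) (Fin 2) ℤ) γ.det_coe ht n hn
  have h2 : ((γ : Matrix (Fin 2) (Fin 2) ℤ)) ^ n = 1 := by
    rw [← Matrix.SpecialLinearGroup.coe_pow, hγn, Matrix.SpecialLinearGroup.coe_one]
  rw [h2, Matrix.trace_one] at h1
  simp at h1

/-- Conjugates of `T ^ k` have trace `2`. -/
theorem trace_conj_T_pow (h : SL(2, ℤ)) (k : ℕ) :
    ((h⁻¹ * ModularGroup.T ^ k * h : SL(2, ℤ)) : Matrix (Fin 2) (Fin 2) ℤ).trace = 2 := by
  rw [Matrix.SpecialLinearGroup.coe_mul, Matrix.trace_mul_comm, ← Matrix.SpecialLinearGroup.coe_mul,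
    mul_inv_cancel_left]
  have := ModularGroup.coe_T_zpow (k : ℤ)
  rw [zpow_natCast] at this
  rw [this, Matrix.trace_fin_two]
  simp

end Fermat.Agent.Jac.DictC
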