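import Mathlib
import Fermat.Agent.Jac.KummerC
import Fermat.Agent.Jac.DictC.PlaceDict
import Fermat.Agent.Jac.DictC.RatioLemmas
import Fermat.Agent.Jac.DictC.TraceFin

/-!
# Program J, node J-DICT (D4): divisibility of the divisor of `y` when `θ y = (A / B) ^ m`

`kummer_dvd N` : let `A, B` be forms of the same weight on `Γ₀(N)` with characters `χa, χb` of finite
order such that `χb / χa` is a good character (trivial on the elements with `|tr| ≤ 2`).  If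
`thetaMer N y = (A.mer / B.mer) ^ m` then `m ∣ ord_P y` for every place `P` of `Fc N`.

This is exactly the hypothesis `hD4` of `Jac.kummerDataC`; `kummerDataC' N` is the resulting
unconditional Kummer data.

Proof: by (D2) (`place_point_or_cusp`) `P` is a point place or a cusp place.
* Point `z` with stabiliser generated by a rotation `γ ∈ Γ₀(N)` of exact order `e`:
  `e · ord_P y = ord_z (θ y) = m (ord_z A - ord_z B)` and `e ∣ ord_z A - ord_z B` by the rotation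
  lemma for ratios (`A (γ τ) B τ = A τ B (γ τ)` since `χa γ = χb γ`).
* Cusp `c⁻¹ ∞` of width `w`: with `h = out c`, `A' = A ∣[k] h⁻¹`, `B' = B ∣[k] h⁻¹` are holomorphic,
  bounded at `i∞` and `N M`-periodic (`M` killing both characters), hence have orders `ka, kb` in
  `q_{N M}`; `M · wInf N c y = m (ka - kb)`, and `A' / B'` is `w`-periodic (`χa = χb` on the parabolic
  element `h⁻¹ T ^ w h`), so `(N M / w) ∣ ka - kb`; finally `wInf N c y = (N / w) ord_P y`.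
-/

set_option autoImplicit false
set_option linter.unusedSectionVars false
set_option linter.style.haveILetI false

open UpperHalfPlane ModularForm CongruenceSubgroup Filter Topology
open scoped MatrixGroups ModularForm Manifold

namespace Fermat.Agent.Jac.DictC

open Fermat.Agent.X0 Fermat.Agent.Jac

open AlgebraicCurve

variable {N : ℕ} [NeZero N] {k : ℤ} {χa χb : ↥(Gamma0 N) →* ℂˣ}

/-! ## Generalities -/

theorem ordH_pow' {φ : ℍ → ℂ} (hφ : MDiff φ) (h0 : φ ≠ 0) (z : ℍ) (m : ℕ) :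
    ordH (φ ^ m) z = m * ordH φ z := by
  induction m with
  | zero =>
    rw [pow_zero, Nat.zero_mul]
    exact ordH_const one_ne_zero z
  | succ m ih =>
    have hm : MDiff (φ ^ m) := mdifferentiable_pow hφ m
    have hm0 : φ ^ m ≠ 0 := by
      obtain ⟨τ, hτ⟩ := Function.ne_iff.mp h0
      intro h
      exact pow_ne_zero m hτ (by simpa using congrFun h τ)
    rw [pow_succ, ordH_mul hm hφ hm0 h0, ih]
    ring

theorem CharForm.coe_ne_zero (A : CharForm N k χa) (hA : A.mer ≠ 0) : (A : ℍ → ℂ) ≠ 0 := by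
  obtain ⟨z, hz⟩ := (CharForm.mer_ne_zero_iff A).mp hA
  intro h
  exact hz (congrFun h z)

/-- From the identity in `MerH` to the pointwise identity of holomorphic functions. -/
theorem cross_of_thetaMer_eq (A : CharForm N k χa) (B : CharForm N k χb) (hB : B.mer ≠ 0) {m : ℕ}
    {a b : Rb N} (hb : b ≠ 0)
    (hy : thetaMer N (algebraMap (Rb N) (Fc N) a / algebraMap (Rb N) (Fc N) b) =
      (A.mer / B.mer) ^ m) :
    ∀ z, Psi N a z * B z ^ m = A z ^ m * Psi N b z := by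
  have hb' : thetaMer N (algebraMap (Rb N) (Fc N) b) ≠ 0 := by
    rw [Ne, map_eq_zero]
    exact (map_ne_zero_iff _ (IsFractionRing.injective (Rb N) (Fc N))).mpr hb
  rw [map_div₀, div_pow, div_eq_div_iff hb' (pow_ne_zero m hB)] at hy
  have h1 : thetaMer N (algebraMap (Rb N) (Fc N) a) = algebraMap HolH MerH (psiHol N a) :=
    thetaMer_coe N a
  have h2 : thetaMer N (algebraMap (Rb N) (Fc N) b) = algebraMap HolH MerH (psiHol N b) :=
    thetaMer_coe N b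
  rw [h1, h2] at hy
  unfold CharForm.mer at hy
  rw [← map_pow, ← map_pow, ← map_mul, ← map_mul] at hy
  have h3 := IsFractionRing.injective HolH MerH hy
  intro z
  have h4 := congrArg (fun φ : HolH => (φ : ℍ → ℂ) z) h3
  simpa using h4

/-- Characters `χa`, `χb` with `χb / χa` good agree on the elements with `|tr| ≤ 2`. -/
theorem char_eq_of_good (hgood : χb / χa ∈ goodCharC N) (γ : ↥(Gamma0 N))
    (hγ : |((γ : SL(2, ℤ)) : Matrix (Fin 2) (Fin 2) ℤ).trace| ≤ 2) : χa γ = χb γ := by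
  have h := hgood.2 γ hγ
  rw [MonoidHom.div_apply, div_eq_one] at h
  exact h.symm

/-! ## Points -/

theorem dvd_ord_of_point (A : CharForm N k χa) (B : CharForm N k χb) (hA : A.mer ≠ 0)
    (hB : B.mer ≠ 0) (hgood : χb / χa ∈ goodCharC N) {m : ℕ} {y : Fc N} (hy0 : y ≠ 0)
    (hy : thetaMer N y = (A.mer / B.mer) ^ m) (z : ℍ) (γ : SL(2, ℤ)) (e : ℕ) (he : 0 < e)
    (hγ : γ ∈ Gamma0 N) (hfin : IsOfFinOrder γ) (hγz : γ • z = z)
    (hprim : IsPrimitiveRoot ((denom (γ : GL (Fin 2) ℝ) z) ^ 2) e) (P : Place Kc (Fc N))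
    (hP : ∀ f : Fc N, f ≠ 0 → ordAtPt (R := Rb N) (Psi N) z f = (e : ℤ) * P.ord f) :
    (m : ℤ) ∣ P.ord y := by
  obtain ⟨a, b, ha, hb, rfl⟩ := exists_eq_div_of_ne_zero (R := Rb N) hy0
  have hcross := cross_of_thetaMer_eq A B hB hb hy
  have hA0 := CharForm.coe_ne_zero A hA
  have hB0 := CharForm.coe_ne_zero B hB
  have hPa : MDiff (Psi N a) := Psi_mdiff N a
  have hPb : MDiff (Psi N b) := Psi_mdiff N b
  have hPa0 : Psi N a ≠ 0 := map_ne_zero_of_injective (Psi_injective N) ha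
  have hPb0 : Psi N b ≠ 0 := map_ne_zero_of_injective (Psi_injective N) hb
  have hfun : Psi N a * (B : ℍ → ℂ) ^ m = (A : ℍ → ℂ) ^ m * Psi N b := funext hcross
  have hBm : MDiff ((B : ℍ → ℂ) ^ m) := mdifferentiable_pow B.holo m
  have hAm : MDiff ((A : ℍ → ℂ) ^ m) := mdifferentiable_pow A.holo m
  have hBm0 : (B : ℍ → ℂ) ^ m ≠ 0 := by
    obtain ⟨w, hw⟩ := (CharForm.mer_ne_zero_iff B).mp hB
    intro h
    exact pow_ne_zero m hw (by simpa using congrFun h w)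
  have hAm0 : (A : ℍ → ℂ) ^ m ≠ 0 := by
    obtain ⟨w, hw⟩ := (CharForm.mer_ne_zero_iff A).mp hA
    intro h
    exact pow_ne_zero m hw (by simpa using congrFun h w)
  have hord := congrArg (fun φ : ℍ → ℂ => ordH φ z) hfun
  beta_reduce at hord
  rw [ordH_mul hPa hBm hPa0 hBm0, ordH_mul hAm hPb hAm0 hPb0, ordH_pow' B.holo hB0,
    ordH_pow' A.holo hA0] at hord
  -- the rotation lemma
  have hχ : χa ⟨γ, hγ⟩ = χb ⟨γ, hγ⟩ :=
    char_eq_of_good hgood ⟨γ, hγ⟩ (abs_trace_le_two_of_isOfFinOrder γ hfin)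
  have hinv : ∀ τ, A (γ • τ) * B τ = A τ * B (γ • τ) := by
    intro τ
    have h1 := A.smul_apply ⟨γ, hγ⟩ τ
    have h2 := B.smul_apply ⟨γ, hγ⟩ τ
    simp only at h1 h2
    rw [h1, h2, hχ]
    ring
  obtain ⟨t, ht⟩ := dvd_ordH_sub_of_isPrimitiveRoot A.holo hA0 B.holo hB0 γ z hγz hinv hprim
  have hP' := hP _ (div_ne_zero
    ((map_ne_zero_iff _ (IsFractionRing.injective (Rb N) (Fc N))).mpr ha)
    ((map_ne_zero_iff _ (IsFractionRing.injective (Rb N) (Fc N))).mpr hb))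
  rw [ordAtPt_div (Psi_injective N) (Psi_mdiff N) z ha hb] at hP'
  refine ⟨t, ?_⟩
  have he' : (e : ℤ) ≠ 0 := by exact_mod_cast he.ne'
  apply mul_left_cancel₀ he'
  rw [← hP']
  have hord' : (ordH (Psi N a) z : ℤ) + (m : ℤ) * (ordH B z : ℤ) =
      (m : ℤ) * (ordH A z : ℤ) + (ordH (Psi N b) z : ℤ) := by exact_mod_cast hord
  linear_combination hord' + (m : ℤ) * ht

/-! ## Cusps -/

theorem denom_T_pow (n : ℕ) (τ : ℍ) :
    denom ((ModularGroup.T ^ n : SL(2, ℤ)) : GL (Fin 2) ℝ) τ = 1 := by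
  rw [ModularGroup.denom_apply]
  have := ModularGroup.coe_T_zpow (n : ℤ)
  rw [zpow_natCast] at this
  have h10 : (ModularGroup.T ^ n : SL(2, ℤ)) 1 0 = 0 := by
    show ((ModularGroup.T ^ n : SL(2, ℤ)) : Matrix (Fin 2) (Fin 2) ℤ) 1 0 = 0
    rw [this]; rfl
  have h11 : (ModularGroup.T ^ n : SL(2, ℤ)) 1 1 = 1 := by
    show ((ModularGroup.T ^ n : SL(2, ℤ)) : Matrix (Fin 2) (Fin 2) ℤ) 1 1 = 1
    rw [this]; rfl
  rw [h10, h11]
  simp

/-- Translation behaviour of `A ∣[k] h⁻¹` when `h⁻¹ T ^ n h ∈ Γ₀(N)`. -/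
theorem CharForm.slash_inv_vadd (A : CharForm N k χa) (h : SL(2, ℤ)) (n : ℕ)
    (hmem : h⁻¹ * ModularGroup.T ^ n * h ∈ Gamma0 N) (τ : ℍ) :
    ((A : ℍ → ℂ) ∣[k] h⁻¹) ((n : ℝ) +ᵥ τ) =
      ((χa ⟨h⁻¹ * ModularGroup.T ^ n * h, hmem⟩ : ℂˣ) : ℂ) * ((A : ℍ → ℂ) ∣[k] h⁻¹) τ := by
  have h1 : (((A : ℍ → ℂ) ∣[k] h⁻¹) ∣[k] (ModularGroup.T ^ n : SL(2, ℤ))) τ =
      ((A : ℍ → ℂ) ∣[k] h⁻¹) ((n : ℝ) +ᵥ τ) := by
    rw [SL_slash_apply, denom_T_pow, one_zpow, mul_one, T_pow_smul_eq_vadd]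
  have h2 : ∀ γ₁ : ↥(Gamma0 N), h⁻¹ * ModularGroup.T ^ n = (γ₁ : SL(2, ℤ)) * h⁻¹ →
      ((A : ℍ → ℂ) ∣[k] h⁻¹) ∣[k] (ModularGroup.T ^ n : SL(2, ℤ)) =
        ((χa γ₁ : ℂˣ) : ℂ) • ((A : ℍ → ℂ) ∣[k] h⁻¹) := by
    intro γ₁ e
    rw [← SlashAction.slash_mul, e, SlashAction.slash_mul, A.slash γ₁, SL_smul_slash]
  have h3 := h2 ⟨h⁻¹ * ModularGroup.T ^ n * h, hmem⟩ (by
    show h⁻¹ * ModularGroup.T ^ n = (h⁻¹ * ModularGroup.T ^ n * h) * h⁻¹
    group)
  rw [← h1, h3, Pi.smul_apply, smul_eq_mul]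

/-- `T ^ n • c = c` means `(out c)⁻¹ T ^ n (out c) ∈ Γ₀(N)`. -/
theorem conj_T_pow_mem_of_smul_eq {c : SL(2, ℤ) ⧸ Gamma0 N} {n : ℕ}
    (hfix : ModularGroup.T ^ n • c = c) :
    (Quotient.out c : SL(2, ℤ))⁻¹ * ModularGroup.T ^ n * (Quotient.out c : SL(2, ℤ)) ∈
      Gamma0 N := by
  set h : SL(2, ℤ) := Quotient.out c with hh
  have hc : ((h : SL(2, ℤ)) : SL(2, ℤ) ⧸ Gamma0 N) = c := by
    rw [hh]; exact Quotient.out_eq' c
  have h1 : ModularGroup.T ^ n • (h : SL(2, ℤ) ⧸ Gamma0 N) = (h : SL(2, ℤ) ⧸ Gamma0 N) := by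
    rw [hc]; exact hfix
  rw [MulAction.Quotient.smul_mk, smul_eq_mul] at h1
  have h2 := QuotientGroup.eq.mp h1.symm
  rwa [← mul_assoc] at h2

theorem smul_pow_eq_of_smul_eq {G X : Type*} [Group G] [MulAction G X] {g : G} {x : X}
    (h : g • x = x) (n : ℕ) : g ^ n • x = x := by
  induction n with
  | zero => rw [pow_zero, one_smul]
  | succ n ih => rw [pow_succ, mul_smul, h, ih]

/-- `A ∣[k] h⁻¹` is not identically zero. -/
theorem CharForm.slash_ne_zero (A : CharForm N k χa) (hA : A.mer ≠ 0) (h : SL(2, ℤ)) :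
    (A : ℍ → ℂ) ∣[k] h⁻¹ ≠ 0 := by
  obtain ⟨z, hz⟩ := (CharForm.mer_ne_zero_iff A).mp hA
  intro h0
  have h1 := congrFun h0 (h • z)
  rw [SL_slash_apply, inv_smul_smul, Pi.zero_apply] at h1
  rcases mul_eq_zero.mp h1 with h2 | h2
  · exact hz h2
  · exact zpow_ne_zero _ (denom_ne_zero _ _) h2

/-- **Order at `i∞` of `A ∣[k] h⁻¹`** in the parameter `q_{N M}`, where `χa ^ M = 1`. -/
theorem CharForm.exists_hasOrdInf_slash (A : CharForm N k χa) (hA : A.mer ≠ 0)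
    (c : SL(2, ℤ) ⧸ Gamma0 N) (M : ℕ) [NeZero M] (hM : χa ^ M = 1) :
    ∃ ka : ℕ, HasOrdInf (N * M) ((A : ℍ → ℂ) ∣[k] (Quotient.out c : SL(2, ℤ))⁻¹) ka := by
  set h : SL(2, ℤ) := Quotient.out c with hh
  have hTN : ModularGroup.T ^ N • c = c := by
    have := congrArg (fun σ : Equiv.Perm (SL(2, ℤ) ⧸ Gamma0 N) => σ c) (toPerm_T_pow_eq_one N)
    simp only [Equiv.Perm.one_apply] at this
    rwa [toPerm_pow_apply] at this
  have hmemN := conj_T_pow_mem_of_smul_eq hTN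
  have hTNM : ModularGroup.T ^ (N * M) • c = c := by
    rw [pow_mul]
    exact smul_pow_eq_of_smul_eq hTN M
  have hmem := conj_T_pow_mem_of_smul_eq hTNM
  have hχ : χa ⟨h⁻¹ * ModularGroup.T ^ (N * M) * h, hmem⟩ = 1 := by
    have e : (⟨h⁻¹ * ModularGroup.T ^ (N * M) * h, hmem⟩ : ↥(Gamma0 N)) =
        (⟨h⁻¹ * ModularGroup.T ^ N * h, hmemN⟩ : ↥(Gamma0 N)) ^ M := by
      apply Subtype.ext
      rw [Subgroup.coe_pow]
      show h⁻¹ * ModularGroup.T ^ (N * M) * h = (h⁻¹ * ModularGroup.T ^ N * h) ^ M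
      have := conj_pow (a := h⁻¹) (i := M) (b := ModularGroup.T ^ N)
      rw [inv_inv] at this
      rw [this, ← pow_mul]
    rw [e, map_pow, ← MonoidHom.pow_apply, hM, MonoidHom.one_apply]
  have hper : ∀ τ : ℍ, ((A : ℍ → ℂ) ∣[k] h⁻¹) (((N * M : ℕ) : ℝ) +ᵥ τ) =
      ((A : ℍ → ℂ) ∣[k] h⁻¹) τ := by
    intro τ
    rw [CharForm.slash_inv_vadd A h (N * M) hmem τ, hχ, Units.val_one, one_mul]
  have hhol : MDiff ((A : ℍ → ℂ) ∣[k] h⁻¹) := A.holo.slash k _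
  exact exists_hasOrdInf_of_bounded hper hhol (A.bdd h⁻¹) (CharForm.slash_ne_zero A hA h)

theorem dvd_ord_of_cusp (A : CharForm N k χa) (B : CharForm N k χb) (hA : A.mer ≠ 0)
    (hB : B.mer ≠ 0) (hfa : IsOfFinOrder χa) (hfb : IsOfFinOrder χb)
    (hgood : χb / χa ∈ goodCharC N) {m : ℕ} {y : Fc N} (hy0 : y ≠ 0)
    (hy : thetaMer N y = (A.mer / B.mer) ^ m) (c : SL(2, ℤ) ⧸ Gamma0 N) (w : ℕ) (hw : 0 < w)
    (hwN : w ∣ N) (hfix : ModularGroup.T ^ w • c = c) (P : Place Kc (Fc N))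
    (hP : ∀ f : Fc N, f ≠ 0 → wInf N c f = ((N / w : ℕ) : ℤ) * P.ord f) :
    (m : ℤ) ∣ P.ord y := by
  obtain ⟨a, b, ha, hb, rfl⟩ := exists_eq_div_of_ne_zero (R := Rb N) hy0
  have hcross := cross_of_thetaMer_eq A B hB hb hy
  set h : SL(2, ℤ) := Quotient.out c with hh
  -- a common exponent killing both characters
  obtain ⟨Ma, hMa, hχMa⟩ := isOfFinOrder_iff_pow_eq_one.mp hfa
  obtain ⟨Mb, hMb, hχMb⟩ := isOfFinOrder_iff_pow_eq_one.mp hfb
  set M := Ma * Mb with hM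
  haveI : NeZero M := ⟨(Nat.mul_pos hMa hMb).ne'⟩
  have hχa : χa ^ M = 1 := by
    rw [hM]
    exact (pow_mul χa Ma Mb).trans (by rw [hχMa, one_pow])
  have hχb : χb ^ M = 1 := by
    rw [hM, mul_comm]
    exact (pow_mul χb Mb Ma).trans (by rw [hχMb, one_pow])
  obtain ⟨ka, hka⟩ := CharForm.exists_hasOrdInf_slash A hA c M hχa
  obtain ⟨kb, hkb⟩ := CharForm.exists_hasOrdInf_slash B hB c M hχb
  rw [← hh] at hka hkb
  -- the orders of `Psi a ∘ h⁻¹`, `Psi b ∘ h⁻¹`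
  have hex := hasOrdsInf_cosetHom_Psi N c
  have hα := hex.hasOrdInf ha
  have hβ := hex.hasOrdInf hb
  have hFa : ∀ τ, cosetHom (Gamma0 N) (Psi N) c a τ = Psi N a (h⁻¹ • τ) := fun τ => rfl
  have hFb : ∀ τ, cosetHom (Gamma0 N) (Psi N) c b τ = Psi N b (h⁻¹ • τ) := fun τ => rfl
  -- the identity at the cusp
  have hid : cosetHom (Gamma0 N) (Psi N) c a * ((B : ℍ → ℂ) ∣[k] h⁻¹) ^ m =
      ((A : ℍ → ℂ) ∣[k] h⁻¹) ^ m * cosetHom (Gamma0 N) (Psi N) c b := by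
    funext τ
    simp only [Pi.mul_apply, Pi.pow_apply]
    rw [hFa, hFb, SL_slash_apply, SL_slash_apply, mul_pow, mul_pow]
    linear_combination (denom (h⁻¹ : SL(2, ℤ)) τ ^ (-k)) ^ m * hcross (h⁻¹ • τ)
  have h1 := (DictC.HasOrdInf.of_mul M hα).mul (hkb.pow m)
  have h2 := (hka.pow m).mul (DictC.HasOrdInf.of_mul M hβ)
  rw [hid] at h1
  have h3 := h1.unique h2
  -- `A' / B'` is `w`-periodic
  have hmemw := conj_T_pow_mem_of_smul_eq hfix
  rw [← hh] at hmemw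
  have hχw : χa ⟨h⁻¹ * ModularGroup.T ^ w * h, hmemw⟩ = χb ⟨h⁻¹ * ModularGroup.T ^ w * h, hmemw⟩ :=
    char_eq_of_good hgood _ (by
      show |((h⁻¹ * ModularGroup.T ^ w * h : SL(2, ℤ)) : Matrix (Fin 2) (Fin 2) ℤ).trace| ≤ 2
      rw [trace_conj_T_pow h w]
      norm_num)
  have hQ : HasOrdInf (N * M) (((A : ℍ → ℂ) ∣[k] h⁻¹) / ((B : ℍ → ℂ) ∣[k] h⁻¹))
      ((ka : ℤ) - (kb : ℤ)) := hka.div hkb
  have hper : ∀ τ : ℍ, (((A : ℍ → ℂ) ∣[k] h⁻¹) / ((B : ℍ → ℂ) ∣[k] h⁻¹)) ((w : ℝ) +ᵥ τ) =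
      (((A : ℍ → ℂ) ∣[k] h⁻¹) / ((B : ℍ → ℂ) ∣[k] h⁻¹)) τ := by
    intro τ
    simp only [Pi.div_apply]
    rw [CharForm.slash_inv_vadd A h w hmemw, CharForm.slash_inv_vadd B h w hmemw, hχw]
    exact mul_div_mul_left _ _ (Units.ne_zero _)
  obtain ⟨t, ht⟩ := hQ.dvd_of_periodic (d := w) (Dvd.dvd.mul_right hwN M) hper
  -- conclusion
  have hP' := hP _ (div_ne_zero
    ((map_ne_zero_iff _ (IsFractionRing.injective (Rb N) (Fc N))).mpr ha)
    ((map_ne_zero_iff _ (IsFractionRing.injective (Rb N) (Fc N))).mpr hb))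
  unfold wInf at hP'
  rw [ordAtInf_div hex ha hb] at hP'
  obtain ⟨q, hq⟩ := hwN
  have hNw : N / w = q := by rw [hq, Nat.mul_div_cancel_left _ hw]
  have hNMw : N * M / w = q * M := by rw [hq, mul_assoc, Nat.mul_div_cancel_left _ hw]
  have hq0 : (q : ℤ) ≠ 0 := by
    have : q ≠ 0 := by
      rintro rfl
      rw [mul_zero] at hq
      exact NeZero.ne N hq
    exact_mod_cast this
  have hM0 : (M : ℤ) ≠ 0 := by exact_mod_cast NeZero.ne M
  rw [hNw] at hP'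
  rw [hNMw] at ht
  refine ⟨t, ?_⟩
  apply mul_left_cancel₀ (mul_ne_zero hM0 hq0)
  unfold ordInfR at h3
  push_cast at ht
  linear_combination (-(M : ℤ)) * hP' + h3 + (m : ℤ) * ht

/-! ## The divisibility statement (D4) and the unconditional Kummer data -/

/-- **(D4).** If `thetaMer N y = (A.mer / B.mer) ^ m` with `A, B` forms of the same weight whose
characters have finite order and good quotient, then `m` divides the order of `y` at every place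
of `Fc N`.  This is exactly the hypothesis `hD4` of `Jac.kummerDataC`. -/
theorem kummer_dvd (N : ℕ) [NeZero N] (m : ℕ) (k : ℤ) (χa χb : ↥(Gamma0 N) →* ℂˣ)
    (A : CharForm N k χa) (B : CharForm N k χb) (hfa : IsOfFinOrder χa) (hfb : IsOfFinOrder χb)
    (hA : A.mer ≠ 0) (hB : B.mer ≠ 0) (hgood : χb / χa ∈ goodCharC N) (y : Fc N)
    (hy : thetaMer N y = (A.mer / B.mer) ^ m) (P : AlgebraicCurve.Place ℂ (Fc N)) :
    (m : ℤ) ∣ P.ord y := by
  have hy0 : y ≠ 0 := by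
    rintro rfl
    rw [map_zero] at hy
    exact pow_ne_zero m (div_ne_zero hA hB) hy.symm
  rcases place_point_or_cusp N P with ⟨z, γ, e, he, hγ, hfin, hγz, hprim, hP⟩ |
    ⟨c, w, hw, hwN, hfix, hP⟩
  · exact dvd_ord_of_point A B hA hB hgood hy0 hy z γ e he hγ hfin hγz hprim P hP
  · exact dvd_ord_of_cusp A B hA hB hfa hfb hgood hy0 hy c w hw hwN hfix P hP

end Fermat.Agent.Jac.DictC

namespace Fermat.Agent.Jac

/-- **(J3c), unconditional.** The Kummer data of `X₀(N)` over `ℂ`: `θ = thetaMer N`,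
`Adm = IsCharRatio N`, `Good = goodCharC N`. -/
noncomputable def kummerDataC' (N : ℕ) [NeZero N] :
    KummerData ℂ (DictC.Fc N) Fermat.Agent.X0.MerH ↥(Gamma0 N) :=
  kummerDataC N (DictC.kummer_dvd N)

end Fermat.Agent.Jac
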