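import Mathlib
import Fermat.Agent.FF.RiemannPkg
import Fermat.Agent.Jac.DictC.ModDeg

/-!
# Program J, node J-DICT (D3): the Riemann package of the function field of `X₀(N)` over `ℂ`

`riemannPkg_C N : Red.RiemannPkg ℂ (laurentBaseChange ℂ (modularFunctionFieldFull N))`, from
`DictC.jBar_isSepVar` (degree `ψ(N)` over `ℂ(j)`) and the characteristic-free `FF.riemannPkg`;
in particular `HasPrincipalDivisors`, all places of degree one, Riemann's theorem.
-/

set_option autoImplicit false

namespace Fermat.Agent.Jac.DictC

open ModularCurve IntermediateField Fermat.Agent.X0 Fermat.Agent.FF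

/-- `j` is a separating variable (in the characteristic-free sense) of `Fc N / ℂ`. -/
theorem jBar_isSepVarS (N : ℕ) [NeZero N] : IsSepVarS Kc (jBar N) (dedekindPsi N) := by
  have h := jBar_isSepVar N
  haveI := h.finite
  exact ⟨h, inferInstance⟩

/-- **(D3)** The Riemann package of the function field of `X₀(N)` over `ℂ`. -/
theorem riemannPkg_C (N : ℕ) [NeZero N] :
    Red.RiemannPkg ℂ (laurentBaseChange ℂ (modularFunctionFieldFull N)) :=
  riemannPkg (jBar_isSepVarS N)

/-- Principal divisors exist on the function field of `X₀(N)` over `ℂ`. -/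
theorem hasPrincipalDivisors_C (N : ℕ) [NeZero N] :
    AlgebraicCurve.HasPrincipalDivisors ℂ (laurentBaseChange ℂ (modularFunctionFieldFull N)) :=
  (riemannPkg_C N).principal

end Fermat.Agent.Jac.DictC
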