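import Mathlib
import Fermat.Agent.Jac.DictC.RiemannPkgC
import Fermat.Agent.Jac.DictC.ModDeg
import Fermat.Agent.Hecke.HeckeInputsGen

set_option autoImplicit false
set_option linter.style.haveILetI false

/-!
# Program J, node J-DICT: glue between `DictC` and the generic Hecke inputs

`Hecke.Gen.heckeInputsAlong_of_finite_over_j` (helper13) needs, over `L = ℂ`,
`HasPrincipalDivisors ℂ (FL ℂ M)` and `FiniteDimensional ℂ⟮jL ℂ M⟯ (FL ℂ M)`.  Both come from the
dictionary over `ℂ` (`hasPrincipalDivisors_C`, `jBar_isSepVar`), since `FL ℂ M = Fc M` and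
`jL ℂ M = jBar M` by definition.
-/

namespace Fermat.Agent.Jac.DictC

open Fermat.Agent.X0 Fermat.Agent.Hecke.Gen

open AlgebraicCurve ModularCurve IntermediateField

theorem jL_eq_jBar (M : ℕ) [NeZero M] : jL ℂ M = jBar M := rfl

theorem finiteDimensional_over_jL_C (M : ℕ) [NeZero M] :
    FiniteDimensional ℂ⟮jL ℂ M⟯ (FL ℂ M) :=
  (jBar_isSepVar M).finite

theorem finrank_over_jL_C (M : ℕ) [NeZero M] :
    Module.finrank ℂ⟮jL ℂ M⟯ (FL ℂ M) = dedekindPsi M :=
  (jBar_isSepVar M).finrank_eq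

theorem hasPrincipalDivisors_FL_C (M : ℕ) [NeZero M] : HasPrincipalDivisors ℂ (FL ℂ M) :=
  hasPrincipalDivisors_C M

/-- **Hecke inputs over `ℂ`**, unconditionally. -/
theorem heckeInputsAlong_C (N ℓ : ℕ) [NeZero N] [NeZero ℓ] : HeckeInputsAlong ℂ N ℓ := by
  haveI : HasPrincipalDivisors ℂ (FL ℂ (N * ℓ)) := hasPrincipalDivisors_FL_C (N * ℓ)
  haveI : FiniteDimensional ℂ⟮jL ℂ (N * ℓ)⟯ (FL ℂ (N * ℓ)) := finiteDimensional_over_jL_C (N * ℓ)
  exact heckeInputsAlong_of_finite_over_j ℂ N ℓ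

end Fermat.Agent.Jac.DictC
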