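-- Ported from Fermat/Agent/X0/ModFinalInf.lean with the constant field `ℚ̄` replaced by `ℂ` (Program J, node J-DICT).
import Mathlib
import Fermat.Agent.X0.ModFinalInf
import Fermat.Agent.Jac.DictC.CuspComplete
import Fermat.Agent.X0.CuspComplete
import Fermat.Agent.Jac.DictC.ValInfPsi
import Fermat.Agent.X0.ValInfPsi
import Fermat.Agent.X0.QExpGamma
import Fermat.Agent.X0.ValLike
import Fermat.Agent.X0.ACL
import Fermat.Agent.X0.CountBasic
import Fermat.Agent.X0.Alg.SepVarBasic

/-!
# X-MOD: the places of `Fc N` over `j = ∞`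

Given that `jBar N` is a separating variable of degree `dedekindPsi N` (MOD-DEG), the poles of
`jBar N` are in bijection with the orbits of `T` on `SL(2,ℤ) ⧸ Γ₀(N)`:
`card_placesOverInfty_of_isSepVar`.

Ingredients: the valuations `wInf N c` (`ValInfPsi.lean`), `w_int` at `∞`
(`CuspComplete.lean`), the integrality criterion (`ValLike.lean`), the abstract counting lemma
(`ACL.lean`), distinctness of the conjugates (`QExpGamma.lean`).
-/

set_option autoImplicit false
set_option linter.unusedSectionVars false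
set_option linter.style.haveILetI false

namespace Fermat.Agent.Jac.DictC

open Fermat.Agent.X0

open UpperHalfPlane Filter Topology IntermediateField AlgebraicCurve ModularCurve
open scoped Manifold MatrixGroups
open CongruenceSubgroup
open Fermat.Agent.S23.PrimEltQExp

/-! ## Orbits of `zpowers g` and of `zpowers (toPerm g)` -/

theorem toPerm_zpow_apply {G X : Type*} [Group G] [MulAction G X] (g : G) (k : ℤ) (c : X) :
    ((MulAction.toPerm g : Equiv.Perm X) ^ k) c = g ^ k • c := by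
  have h : (MulAction.toPerm g : Equiv.Perm X) ^ k = MulAction.toPerm (g ^ k) := by
    rw [← MulAction.toPermHom_apply, ← map_zpow]
    rfl
  rw [h, MulAction.toPerm_apply]

theorem orbitRel_zpowers_toPerm_iff {G X : Type*} [Group G] [MulAction G X] (g : G) (a b : X) :
    MulAction.orbitRel (Subgroup.zpowers (MulAction.toPerm g : Equiv.Perm X)) X a b ↔
      MulAction.orbitRel (Subgroup.zpowers g) X a b := by
  rw [MulAction.orbitRel_apply, MulAction.orbitRel_apply, MulAction.mem_orbit_iff,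
    MulAction.mem_orbit_iff]
  constructor
  · rintro ⟨⟨σ, hσ⟩, h⟩
    obtain ⟨k, rfl⟩ := Subgroup.mem_zpowers_iff.mp hσ
    refine ⟨⟨g ^ k, Subgroup.zpow_mem_zpowers g k⟩, ?_⟩
    rw [← h]
    exact (toPerm_zpow_apply g k b).symm
  · rintro ⟨⟨σ, hσ⟩, h⟩
    obtain ⟨k, rfl⟩ := Subgroup.mem_zpowers_iff.mp hσ
    refine ⟨⟨(MulAction.toPerm g : Equiv.Perm X) ^ k, Subgroup.zpow_mem_zpowers _ k⟩, ?_⟩
    rw [← h]
    exact toPerm_zpow_apply g k b

theorem card_orbitRel_quotient_zpowers_toPerm {G X : Type*} [Group G] [MulAction G X] (g : G) :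
    Nat.card (MulAction.orbitRel.Quotient
      (Subgroup.zpowers (MulAction.toPerm g : Equiv.Perm X)) X) =
      Nat.card (MulAction.orbitRel.Quotient (Subgroup.zpowers g) X) := by
  apply Nat.card_congr
  exact Quotient.congr (Equiv.refl X) (fun a b => orbitRel_zpowers_toPerm_iff g a b)

/-! ## The conjugates of `Ψ` -/

section

variable (N : ℕ) [NeZero N]

/-- The conjugates of `Ψ` attached to distinct cosets are distinct. -/
theorem cosetHom_Psi_injective :
    Function.Injective (fun c : SL(2, ℤ) ⧸ Gamma0 N => cosetHom (Gamma0 N) (Psi N) c) := by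
  intro c c' h
  have h1 := congrArg (fun ψ : Rb N →+* (ℍ → ℂ) => ψ ⟨jBarD N N dvd_rfl, jBarD_mem_Rb N N dvd_rfl⟩) h
  simp only at h1
  have hΨ := Psi_jBarD N N dvd_rfl
  rw [jAn_eq_jFun] at hΨ
  have h2 : (fun z : ℍ => jFun (scaleH N ((Quotient.out c)⁻¹ • z))) =
      fun z : ℍ => jFun (scaleH N ((Quotient.out c')⁻¹ • z)) := by
    funext z
    have := congrFun h1 z
    unfold cosetHom at this
    rw [conjHom_apply, conjHom_apply, hΨ] at this
    exact this
  have h3 := coset_eq_of_jFun_scaleH_inv_smul_eq N h2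
  rw [QuotientGroup.out_eq', QuotientGroup.out_eq'] at h3
  exact h3

/-- **`w_complete` at `∞`.** -/
theorem wInf_complete {n : ℕ} (hsep : IsSepVar Kc (jBar N) n)
    (hcard : Nat.card (SL(2, ℤ) ⧸ Gamma0 N) = n) (f : Fc N) (hf : f ≠ 0)
    (hpos : ∀ c, 0 ≤ wInf N c f) (v : Place Kc (Fc N)) (hv : 0 < v.ord (jBar N)⁻¹) :
    0 ≤ v.ord f := by
  classical
  haveI : FiniteDimensional Kc⟮jBar N⟯ (Fc N) := hsep.finite
  haveI : Finite (SL(2, ℤ) ⧸ Gamma0 N) := by
    apply Nat.finite_of_card_ne_zero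
    rw [hcard, ← hsep.finrank_eq]
    exact Module.finrank_pos.ne'
  haveI : Fintype (SL(2, ℤ) ⧸ Gamma0 N) := Fintype.ofFinite _
  have hX : Fintype.card (SL(2, ℤ) ⧸ Gamma0 N) = Module.finrank Kc⟮jBar N⟯ (Fc N) := by
    rw [← Nat.card_eq_fintype_card, hcard, hsep.finrank_eq]
  have hint := fun i => coeff_minpoly_wInf_nonneg N hX (cosetHom_Psi_injective N) hf hpos i
  -- a base coset
  let c₀ : SL(2, ℤ) ⧸ Gamma0 N := ((1 : SL(2, ℤ)) : SL(2, ℤ) ⧸ Gamma0 N)
  have hW : IsValLike Kc (wInf N c₀) :=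
    ⟨wInf_mul N c₀, wInf_add N c₀, wInf_const N c₀⟩
  have hj0 : jBar N ≠ 0 := by
    intro h
    exact hsep.transcendental (h ▸ isAlgebraic_zero)
  have hy0 : (jBar N)⁻¹ ≠ 0 := inv_ne_zero hj0
  have hy : 0 < wInf N c₀ (jBar N)⁻¹ := by
    rw [wInf_x]
    exact_mod_cast Nat.pos_of_neZero N
  have hE : Kc⟮jBar N⟯ ≤ Kc⟮(jBar N)⁻¹⟯ := by
    rw [adjoin_simple_le_iff]
    have := inv_mem (mem_adjoin_simple_self Kc (jBar N)⁻¹)
    rwa [inv_inv] at this
  have hfint : IsIntegral Kc⟮jBar N⟯ f := IsIntegral.of_finite _ f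
  refine ord_nonneg_of_minpoly_coeff hW hy0 hy Kc⟮jBar N⟯ hE hfint (fun i => ?_) v hv
  rcases hint i with h | h
  · exact Or.inl h
  · exact Or.inr (h c₀)

/-- **The poles of `j`** are in bijection with the `T`-orbits on the cosets of `Γ₀(N)`, given
that `jBar N` is a separating variable of the right degree. -/
theorem card_placesOverInfty_of_isSepVar {n : ℕ} (hsep : IsSepVar Kc (jBar N) n)
    (hcard : Nat.card (SL(2, ℤ) ⧸ Gamma0 N) = n) :
    Nat.card (placesOverInfty Kc (jBar N)) = orbitCount N ModularGroup.T := by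
  classical
  haveI : FiniteDimensional Kc⟮jBar N⟯ (Fc N) := hsep.finite
  haveI : Finite (SL(2, ℤ) ⧸ Gamma0 N) := by
    apply Nat.finite_of_card_ne_zero
    rw [hcard, ← hsep.finrank_eq]
    exact Module.finrank_pos.ne'
  haveI : Fintype (SL(2, ℤ) ⧸ Gamma0 N) := Fintype.ofFinite _
  have hC : Fintype.card (SL(2, ℤ) ⧸ Gamma0 N) = n := by
    rw [← Nat.card_eq_fintype_card, hcard]
  rw [placesOverInfty_eq_placesOver_inv_zero,
    card_placesOver_zero_eq_card_orbits (isSepVar_inv hsep) hC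
      (MulAction.toPerm ModularGroup.T : Equiv.Perm (SL(2, ℤ) ⧸ Gamma0 N)) N
      (Nat.pos_of_neZero N) (toPerm_T_pow_eq_one N) (wInf N) (wInf_mul N) (wInf_add N)
      (wInf_const N) (wInf_x N) (wInf_eps N) (wInf_div N) (wInf_complete N hsep hcard),
    card_orbitRel_quotient_zpowers_toPerm]
  rfl

/-- The Skeleton statement `card_placesOverInfty`, given `jBar_isSepVar`. -/
theorem card_placesOverInfty_of_jBar_isSepVar
    (hsep : IsSepVar Kc (jBar N) (dedekindPsi N)) :
    Nat.card (placesOverInfty Kc (jBar N)) = orbitCount N ModularGroup.T :=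
  card_placesOverInfty_of_isSepVar N hsep (card_cosets N)

end

end Fermat.Agent.Jac.DictC
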